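import Fermat.Agent.KlunersMalle.Fields
import Mathlib.FieldTheory.Galois.Basic
import Mathlib.GroupTheory.RegularWreathProduct

/-!
# The Galois group

`Gal(M/ℚ)` permutes the six roots `ω^i θ`, `ω^{-i} conj θ` as the wreath product `C₃ ≀ C₂`.
-/

set_option autoImplicit false
set_option linter.style.haveILetI false

noncomputable section

open Polynomial IntermediateField Module
open scoped Classical

namespace FA.KlunersMalle

/-- `C₃ ≀ C₂`. -/
abbrev WreathGroup : Type :=
  RegularWreathProduct (Multiplicative (ZMod 3)) (Multiplicative (ZMod 2))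

/-- The six points. -/
abbrev SixPoints : Type := Multiplicative (ZMod 3) × Multiplicative (ZMod 2)

/-- `Gal(M/ℚ)` acts on the embeddings of `L` as `C₃ ≀ C₂` acts on six points. -/
def HasWreathType (L M : IntermediateField ℚ ℂ) : Prop :=
  ∃ e : Gal(M/ℚ) ≃* WreathGroup, ∃ r : SixPoints → (L →ₐ[ℚ] M), Function.Bijective r ∧
    ∀ σ p, σ.toAlgHom.comp (r p) = r (e σ • p)

theorem card_wreathGroup : Nat.card WreathGroup = 18 := by
  rw [RegularWreathProduct.card, Nat.card_congr Multiplicative.toAdd,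
    Nat.card_congr Multiplicative.toAdd, Nat.card_zmod, Nat.card_zmod]
  norm_num

theorem two_cases (q : Multiplicative (ZMod 2)) : q = 1 ∨ q = Multiplicative.ofAdd 1 := by
  revert q
  decide

variable {a : Eisen}

/-- The roots. -/
def rootAt (a : Eisen) (p : SixPoints) : ℂ :=
  if p.2 = 1 then zpow3 p.1.toAdd * theta a else starRingEnd ℂ (zpow3 p.1.toAdd * theta a)

theorem rootAt_one (a : Eisen) (i : Multiplicative (ZMod 3)) :
    rootAt a (i, 1) = zpow3 i.toAdd * theta a := by simp [rootAt]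

theorem rootAt_conj (a : Eisen) (i : Multiplicative (ZMod 3)) :
    rootAt a (i, Multiplicative.ofAdd 1) = zpow3 (-i.toAdd) * starRingEnd ℂ (theta a) := by
  rw [rootAt, if_neg (show ((Multiplicative.ofAdd 1 : Multiplicative (ZMod 2))) ≠ 1 by decide),
    map_mul, conj_zpow3]

theorem rootAt_mem (a : Eisen) (p : SixPoints) : rootAt a p ∈ bigField a := by
  obtain ⟨i, q⟩ := p
  rcases two_cases q with rfl | rfl
  · rw [rootAt_one]
    exact mul_mem (pow_mem (zeta3_mem_big a) _) (theta_mem_big a)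
  · rw [rootAt_conj]
    exact mul_mem (pow_mem (zeta3_mem_big a) _) (conj_theta_mem_big a)

theorem Generic.conj_theta_ne_zero (h : Generic a) : starRingEnd ℂ (theta a) ≠ 0 :=
  (_root_.map_ne_zero _).mpr h.theta_ne_zero

theorem Generic.conj_theta_not_mem (h : Generic a) : starRingEnd ℂ (theta a) ∉ sextic a :=
  fun hm => h.conj_not_cube _ hm rfl

theorem rootAt_injective (h : Generic a) : Function.Injective (rootAt a) := by
  have hne : ∀ i j : ZMod 3, zpow3 i * theta a ≠ zpow3 j * starRingEnd ℂ (theta a) :=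
      fun i j e => by
    refine h.conj_theta_not_mem ?_
    rw [show starRingEnd ℂ (theta a) = zpow3 (-j) * (zpow3 j * starRingEnd ℂ (theta a)) by
      rw [← mul_assoc, ← zpow3_add, neg_add_cancel, zpow3_zero, one_mul], ← e]
    exact mul_mem (pow_mem (zeta3_mem_sextic a) _)
      (mul_mem (pow_mem (zeta3_mem_sextic a) _) (theta_mem a))
  rintro ⟨i, q⟩ ⟨j, q'⟩ e
  rcases two_cases q with rfl | rfl <;> rcases two_cases q' with rfl | rfl <;>
    simp only [rootAt_one, rootAt_conj] at e
  · rw [show i = j from Multiplicative.toAdd.injective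
      (zpow3_injective (mul_right_cancel₀ h.theta_ne_zero e))]
  · exact absurd e (hne _ _)
  · exact absurd e.symm (hne _ _)
  · rw [show i = j from Multiplicative.toAdd.injective
      (neg_injective (zpow3_injective (mul_right_cancel₀ h.conj_theta_ne_zero e)))]

theorem map_zpow3 {E : IntermediateField ℚ ℂ} (f : E →ₐ[ℚ] ℂ) (hw : zeta3 ∈ E) (i : ZMod 3) :
    f ⟨zpow3 i, pow_mem hw _⟩ = (f ⟨zeta3, hw⟩) ^ i.val := by
  rw [← map_pow]
  exact congrArg f (Subtype.ext rfl)

/-- **Every automorphism acts as an element of `C₃ ≀ C₂`.** -/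
theorem exists_wreath (h : Generic a) (σ : Gal(bigField a/ℚ)) :
    ∃ w : WreathGroup, ∀ p, ((σ ⟨rootAt a p, rootAt_mem a p⟩ : bigField a) : ℂ) =
      rootAt a (w • p) := by
  set f : bigField a →ₐ[ℚ] ℂ := (bigField a).val.comp σ.toAlgHom
  have hf : ∀ p, ((σ ⟨rootAt a p, rootAt_mem a p⟩ : bigField a) : ℂ) =
      f ⟨rootAt a p, rootAt_mem a p⟩ := fun p => rfl
  simp only [hf]
  clear hf
  have hw := zeta3_mem_big a
  have hneg : zeta3 ≠ -1 - zeta3 := fun e => by
    have e' := congrArg Complex.im e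
    simp [zeta3] at e'
    linarith [Real.sqrt_pos.mpr (show (0 : ℝ) < 3 by norm_num)]
  have hconj : (-1 - zeta3) = zpow3 (-1) := by rw [← conj_zeta3, ← zpow3_one, conj_zpow3]
  have hrep1 : ∀ i, f ⟨rootAt a (i, 1), rootAt_mem a _⟩ =
      (f ⟨zeta3, hw⟩) ^ i.toAdd.val * f ⟨theta a, theta_mem_big a⟩ := fun i => by
    rw [← map_zpow3 f hw, ← map_mul]
    exact congrArg f (Subtype.ext (rootAt_one a i))
  have hrep2 : ∀ i, f ⟨rootAt a (i, Multiplicative.ofAdd 1), rootAt_mem a _⟩ =
      (f ⟨zeta3, hw⟩) ^ (-i.toAdd).val *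
        f ⟨starRingEnd ℂ (theta a), conj_theta_mem_big a⟩ := fun i => by
    rw [← map_zpow3 f hw, ← map_mul]
    exact congrArg f (Subtype.ext (rootAt_conj a i))
  have hpow : ∀ j : ZMod 3, (zpow3 (-1)) ^ j.val = zpow3 (-j) := fun j => by
    rw [← conj_zpow3, zpow3_one, ← map_pow, show zeta3 ^ j.val = zpow3 j from rfl, conj_zpow3]
  rcases map_root f hw (theta_mem_big a) (theta_pow_three a) h.theta_ne_zero with
    ⟨hz, i, hi⟩ | ⟨hz, i, hi⟩ <;>
  rcases map_root f hw (conj_theta_mem_big a) (theta_conj_pow_three a) h.conj_theta_ne_zero with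
    ⟨hz', j, hj⟩ | ⟨hz', j, hj⟩
  · refine ⟨⟨fun q => Multiplicative.ofAdd (if q = 1 then i else -j), 1⟩, fun p => ?_⟩
    obtain ⟨x, q⟩ := p
    rcases two_cases q with rfl | rfl
    · rw [hrep1, hz, hi, RegularWreathProduct.smul_def, one_mul, rootAt_one, ← mul_assoc,
        show zeta3 ^ x.toAdd.val = zpow3 x.toAdd from rfl, ← zpow3_add]
      simp [smul_eq_mul, add_comm]
    · rw [hrep2, hz, hj, RegularWreathProduct.smul_def, one_mul, rootAt_conj, ← mul_assoc,
        show zeta3 ^ (-x.toAdd).val = zpow3 (-x.toAdd) from rfl, ← zpow3_add]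
      simp [smul_eq_mul, add_comm]
  · exact absurd (hz.symm.trans hz') hneg
  · exact absurd (hz'.symm.trans hz) hneg
  · rw [Complex.conj_conj] at hj
    refine ⟨⟨fun q => Multiplicative.ofAdd (if q = 1 then j else -i), Multiplicative.ofAdd 1⟩,
      fun p => ?_⟩
    obtain ⟨x, q⟩ := p
    rcases two_cases q with rfl | rfl
    · rw [hrep1, hz, hconj, hpow, hi, RegularWreathProduct.smul_def, mul_one, rootAt_conj,
        ← mul_assoc, ← zpow3_add]
      simp [smul_eq_mul, add_comm]
    · rw [hrep2, hz, hconj, hpow, hj, RegularWreathProduct.smul_def,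
        show (Multiplicative.ofAdd 1 : Multiplicative (ZMod 2)) * Multiplicative.ofAdd 1 = 1 by
          decide, rootAt_one, ← mul_assoc, ← zpow3_add]
      simp [smul_eq_mul, add_comm]

/-- The element of `C₃ ≀ C₂` of an automorphism. -/
def wreathOf (h : Generic a) (σ : Gal(bigField a/ℚ)) : WreathGroup := (exists_wreath h σ).choose

theorem wreathOf_spec (h : Generic a) (σ : Gal(bigField a/ℚ)) (p : SixPoints) :
    σ ⟨rootAt a p, rootAt_mem a p⟩ =
      ⟨rootAt a (wreathOf h σ • p), rootAt_mem a _⟩ :=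
  Subtype.ext ((exists_wreath h σ).choose_spec p)

theorem wreathOf_unique (h : Generic a) {σ : Gal(bigField a/ℚ)} {w : WreathGroup}
    (hs : ∀ p, σ ⟨rootAt a p, rootAt_mem a p⟩ = ⟨rootAt a (w • p), rootAt_mem a _⟩) :
    wreathOf h σ = w :=
  eq_of_smul_eq_smul fun p => rootAt_injective h
    (congrArg Subtype.val ((wreathOf_spec h σ p).symm.trans (hs p)))

/-- The homomorphism to `C₃ ≀ C₂`. -/
def wreathHom (h : Generic a) : Gal(bigField a/ℚ) →* WreathGroup :=
  MonoidHom.mk' (wreathOf h) fun σ τ => wreathOf_unique h fun p => by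
    rw [AlgEquiv.mul_apply, wreathOf_spec h τ, wreathOf_spec h σ]
    simp only [mul_smul]

theorem wreathHom_injective (h : Generic a) : Function.Injective (wreathHom h) := by
  refine (injective_iff_map_eq_one _).mpr fun σ hσ => ?_
  have hfix : ∀ p, σ ⟨rootAt a p, rootAt_mem a p⟩ = ⟨rootAt a p, rootAt_mem a p⟩ := fun p => by
    have h' := wreathOf_spec h σ p
    rw [show wreathOf h σ = 1 from hσ] at h'
    simpa only [one_smul] using h'
  have h1 : σ ⟨theta a, theta_mem_big a⟩ = ⟨theta a, theta_mem_big a⟩ := by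
    convert hfix (1, 1) using 3 <;> simp [rootAt_one, zpow3_zero]
  have h2 : σ ⟨starRingEnd ℂ (theta a), conj_theta_mem_big a⟩ =
      ⟨starRingEnd ℂ (theta a), conj_theta_mem_big a⟩ := by
    convert hfix (1, Multiplicative.ofAdd 1) using 3 <;> simp [rootAt_conj, zpow3_zero]
  have h3 : σ ⟨zeta3, zeta3_mem_big a⟩ = ⟨zeta3, zeta3_mem_big a⟩ := by
    have hprod : (⟨rootAt a (Multiplicative.ofAdd 1, 1), rootAt_mem a _⟩ : bigField a) =
        ⟨zeta3, zeta3_mem_big a⟩ * ⟨theta a, theta_mem_big a⟩ :=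
      Subtype.ext (by simp [rootAt_one, zpow3_one])
    have h' := hfix (Multiplicative.ofAdd 1, 1)
    rw [hprod, map_mul, h1] at h'
    exact mul_right_cancel₀ (fun e => h.theta_ne_zero (congrArg Subtype.val e)) h'
  refine AlgEquiv.ext fun x => ?_
  obtain ⟨x, hx⟩ := x
  show σ ⟨x, hx⟩ = ⟨x, hx⟩
  induction hx using IntermediateField.adjoin_induction with
  | mem s hs => rcases hs with rfl | rfl | rfl
                exacts [h3, h1, h2]
  | algebraMap r => exact σ.commutes r
  | add x y hx hy ihx ihy =>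
    rw [show (⟨x + y, _⟩ : bigField a) = ⟨x, hx⟩ + ⟨y, hy⟩ from rfl, map_add, ihx, ihy]
  | inv x hx ih =>
    rw [show (⟨x⁻¹, _⟩ : bigField a) = (⟨x, hx⟩ : bigField a)⁻¹ from rfl, map_inv₀, ih]
  | mul x y hx hy ihx ihy =>
    rw [show (⟨x * y, _⟩ : bigField a) = ⟨x, hx⟩ * ⟨y, hy⟩ from rfl, map_mul, ihx, ihy]

theorem wreathHom_bijective (h : Generic a) : Function.Bijective (wreathHom h) := by
  haveI := finiteDimensional_bigField h
  haveI := isGalois_bigField h
  refine (Nat.bijective_iff_injective_and_card _).mpr ⟨wreathHom_injective h, ?_⟩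
  rw [IsGalois.card_aut_eq_finrank, finrank_bigField h, card_wreathGroup]

/-- The isomorphism. -/
def galoisEquiv (h : Generic a) : Gal(bigField a/ℚ) ≃* WreathGroup :=
  MulEquiv.ofBijective (wreathHom h) (wreathHom_bijective h)

theorem galoisEquiv_spec (h : Generic a) (σ : Gal(bigField a/ℚ)) (p : SixPoints) :
    σ ⟨rootAt a p, rootAt_mem a p⟩ =
      ⟨rootAt a (galoisEquiv h σ • p), rootAt_mem a _⟩ :=
  wreathOf_spec h σ p

/-- An embedding of `L` is determined by the image of `θ`. -/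
theorem algHom_sextic_ext (h : Generic a) {f g : sextic a →ₐ[ℚ] bigField a}
    (he : f ⟨theta a, theta_mem a⟩ = g ⟨theta a, theta_mem a⟩) : f = g := by
  have hw := zeta3_mem_sextic a
  have key : ∀ f' : sextic a →ₐ[ℚ] bigField a, ∃ p : SixPoints,
      (f' ⟨theta a, theta_mem a⟩ : ℂ) = rootAt a p ∧
      (f' ⟨zeta3, hw⟩ : ℂ) = if p.2 = 1 then zeta3 else -1 - zeta3 := fun f' => by
    rcases map_root ((bigField a).val.comp f') hw (theta_mem a) (theta_pow_three a)
      h.theta_ne_zero with ⟨hz, i, hi⟩ | ⟨hz, i, hi⟩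
    · exact ⟨(Multiplicative.ofAdd i, 1), by rw [rootAt_one]; exact hi, by
        rw [if_pos rfl]; exact hz⟩
    · exact ⟨(Multiplicative.ofAdd (-i), Multiplicative.ofAdd 1), by
        rw [rootAt_conj, toAdd_ofAdd, neg_neg]; exact hi, by
        rw [if_neg (show (Multiplicative.ofAdd 1 : Multiplicative (ZMod 2)) ≠ 1 by decide)]
        exact hz⟩
  obtain ⟨p, hp, hpw⟩ := key f
  obtain ⟨q, hq, hqw⟩ := key g
  obtain rfl : p = q := rootAt_injective h (by rw [← hp, ← hq, he])
  refine AlgHom.ext fun x => ?_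
  obtain ⟨x, hx⟩ := x
  induction hx using IntermediateField.adjoin_induction with
  | mem s hs => rcases hs with rfl | rfl
                exacts [Subtype.ext (hpw.trans hqw.symm), he]
  | algebraMap r => exact (f.commutes r).trans (g.commutes r).symm
  | add x y hx hy ihx ihy =>
    rw [show (⟨x + y, _⟩ : sextic a) = ⟨x, hx⟩ + ⟨y, hy⟩ from rfl, map_add, map_add, ihx, ihy]
  | inv x hx ih =>
    rw [show (⟨x⁻¹, _⟩ : sextic a) = (⟨x, hx⟩ : sextic a)⁻¹ from rfl, map_inv₀, map_inv₀, ih]
  | mul x y hx hy ihx ihy =>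
    rw [show (⟨x * y, _⟩ : sextic a) = ⟨x, hx⟩ * ⟨y, hy⟩ from rfl, map_mul, map_mul, ihx, ihy]

/-- **`Gal(M/ℚ)` is `C₃ ≀ C₂` on six points.** -/
theorem hasWreathType_sextic (h : Generic a) :
    HasWreathType (sextic a) (normalClosure ℚ (sextic a) ℂ) := by
  rw [normalClosure_sextic h]
  set e := galoisEquiv h
  let w : SixPoints → WreathGroup := fun p => ⟨fun _ => p.1, p.2⟩
  have hw : ∀ p, w p • ((1, 1) : SixPoints) = p := fun p => by
    simp [w, RegularWreathProduct.smul_def, smul_eq_mul]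
  let r : SixPoints → (sextic a →ₐ[ℚ] bigField a) := fun p =>
    (e.symm (w p)).toAlgHom.comp (IntermediateField.inclusion (sextic_le_bigField a))
  have hr : ∀ p, r p ⟨theta a, theta_mem a⟩ = ⟨rootAt a p, rootAt_mem a p⟩ := fun p => by
    have h0 : (⟨theta a, theta_mem_big a⟩ : bigField a) =
        ⟨rootAt a (1, 1), rootAt_mem a _⟩ :=
      Subtype.ext (by simp [rootAt_one, zpow3_zero])
    calc r p ⟨theta a, theta_mem a⟩ = e.symm (w p) ⟨theta a, theta_mem_big a⟩ := rfl
      _ = ⟨rootAt a (e (e.symm (w p)) • (1, 1)), rootAt_mem a _⟩ := by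
        rw [h0]
        exact galoisEquiv_spec h _ _
      _ = ⟨rootAt a p, rootAt_mem a p⟩ := Subtype.ext (by rw [e.apply_symm_apply, hw])
  refine ⟨e, r, ⟨fun p q hpq => rootAt_injective h ?_, fun f => ?_⟩, fun σ p => ?_⟩
  · exact congrArg Subtype.val ((hr p).symm.trans ((congrArg (fun g : sextic a →ₐ[ℚ] bigField a =>
      g ⟨theta a, theta_mem a⟩) hpq).trans (hr q)))
  · rcases map_root ((bigField a).val.comp f) (zeta3_mem_sextic a) (theta_mem a) (theta_pow_three a)
      h.theta_ne_zero with ⟨-, i, hi⟩ | ⟨-, i, hi⟩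
    · refine ⟨(Multiplicative.ofAdd i, 1), algHom_sextic_ext h ((hr _).trans (Subtype.ext ?_))⟩
      exact (rootAt_one a _).trans hi.symm
    · refine ⟨(Multiplicative.ofAdd (-i), Multiplicative.ofAdd 1),
        algHom_sextic_ext h ((hr _).trans (Subtype.ext ?_))⟩
      exact (rootAt_conj a _).trans (by rw [toAdd_ofAdd, neg_neg]; exact hi.symm)
  · refine algHom_sextic_ext h ?_
    rw [AlgHom.comp_apply, hr, hr]
    exact galoisEquiv_spec h σ p

end FA.KlunersMalle
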