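import Fermat.Agent.KlunersMalle.Data
import Fermat.Agent.KlunersMalle.Galois
import Fermat.Agent.WrightAbelian.GeneralMean

/-!
# The count

The data with `n ≤ Y` are `∑ 4^{ω(n)} ≍ Y log Y` in number and give, two to one at worst, fields of
discriminant at most `(720 Y)²`.
-/

set_option autoImplicit false
set_option linter.style.haveILetI false

noncomputable section

open NumberField Filter Topology Module ArithmeticFunction
open FA.AbelianQuartic (partialSum Tame)
open scoped Classical

namespace FA.KlunersMalle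

/-- The sextic fields of type `C₃ ≀ C₂` with discriminant at most `X`. -/
def wreathFields (X : ℕ) : Set (IntermediateField ℚ ℂ) :=
  {L | finrank ℚ L = 6 ∧ HasWreathType L (IntermediateField.normalClosure ℚ L ℂ) ∧
    ∃ _ : NumberField L, (discr L).natAbs ≤ X}

theorem finite_wreathFields (X : ℕ) : (wreathFields X).Finite := by
  refine ((finite_of_discr_bdd ℂ X).image Subtype.val).subset ?_
  rintro L ⟨-, -, hn, hd⟩
  exact ⟨⟨L, hn.to_finiteDimensional⟩, by
    show |discr L| ≤ (X : ℤ)
    rw [Int.abs_eq_natAbs]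
    exact_mod_cast hd, rfl⟩

theorem sextic_mem {d : Datum} (hd : Admissible d.1) (hne : d.1 ≠ 1) {X : ℕ}
    (hX : (720 * d.1) ^ 2 ≤ X) : sextic (alphaOf d) ∈ wreathFields X := by
  have hg := generic_alphaOf hd hne
  haveI := finiteDimensional_sextic hg
  haveI : NumberField (sextic (alphaOf d)) := { }
  exact ⟨finrank_sextic hg, hasWreathType_sextic hg, this,
    (natAbs_discr_sextic_le hg (cubePart_ne_zero hd) (cube_dvd d) (norm_alphaOf hd)).trans hX⟩

/-- `4^{ω(n)}` on admissible `n`. -/
def weight : ArithmeticFunction ℝ :=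
  ⟨fun n => if Admissible n then (4 : ℝ) ^ n.primeFactors.card else 0,
    if_neg fun h => not_squarefree_zero h.1⟩

theorem weight_apply (n : ℕ) :
    weight n = if Admissible n then (4 : ℝ) ^ n.primeFactors.card else 0 := rfl

theorem weight_nonneg (n : ℕ) : 0 ≤ weight n := by
  rw [weight_apply]
  split_ifs <;> positivity

theorem admissible_mul {m n : ℕ} (h : m.Coprime n) :
    Admissible (m * n) ↔ Admissible m ∧ Admissible n := by
  simp only [Admissible, Nat.squarefree_mul h, h.primeFactors_mul, Finset.mem_union, or_imp,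
    forall_and]
  tauto

theorem weight_isMultiplicative : weight.IsMultiplicative := by
  refine ⟨?_, fun {m n} h => ?_⟩
  · rw [weight_apply, if_pos ⟨squarefree_one, by simp⟩, Nat.primeFactors_one, Finset.card_empty,
      pow_zero]
  · rw [weight_apply, weight_apply, weight_apply]
    by_cases h1 : Admissible m
    · by_cases h2 : Admissible n
      · rw [if_pos ((admissible_mul h).mpr ⟨h1, h2⟩), if_pos h1, if_pos h2, h.primeFactors_mul,
          Finset.card_union_of_disjoint h.disjoint_primeFactors, pow_add]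
      · rw [if_neg fun h' => h2 ((admissible_mul h).mp h').2, if_neg h2, mul_zero]
    · rw [if_neg fun h' => h1 ((admissible_mul h).mp h').1, if_neg h1, zero_mul]

theorem admissible_prime {p : ℕ} (hp : p.Prime) : Admissible p ↔ p % 3 = 1 := by
  simp [Admissible, hp.squarefree, hp.primeFactors]

theorem tame_weight : Tame weight 2 4 := by
  intro p hp e
  rw [weight_apply]
  refine ⟨fun he => if_neg fun h => ?_, ?_⟩
  · have := (Nat.squarefree_pow_iff hp.ne_one (by omega)).mp h.1
    omega
  · split_ifs with h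
    · rw [abs_of_nonneg (by positivity)]
      have hc : (p ^ e).primeFactors.card ≤ 1 := by
        rcases Nat.eq_zero_or_pos e with rfl | he
        · simp
        · rw [Nat.primeFactors_prime_pow he.ne' hp, Finset.card_singleton]
      exact (pow_le_pow_right₀ (by norm_num) hc).trans_eq (pow_one 4)
    · rw [abs_zero]
      norm_num

/-- The mean value. -/
theorem exists_weight_mean : ∃ c : ℝ, 0 < c ∧
    Tendsto (fun x : ℝ => partialSum weight x / (x * Real.log x)) atTop (𝓝 c) := by
  haveI : Fact (Nat.Prime 3) := ⟨Nat.prime_three⟩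
  obtain ⟨c, hc, hpos⟩ := FA.WrightAbelian.exists_mean (l := 3) (P := 3) (β := 2) (a := 1)
    weight_isMultiplicative weight_nonneg tame_weight one_pos le_rfl
    (fun p _ _ e he he' => absurd he' (by omega))
    (fun p hp _ => by
      rw [pow_one, weight_apply]
      simp only [admissible_prime hp, hp.primeFactors, Finset.card_singleton]
      split_ifs <;> norm_num)
    (b := 2) (by norm_num) le_rfl
  exact ⟨c, hpos rfl, by simpa using hc⟩

/-- The data up to `Y`. -/
def dataUpTo (Y : ℕ) : Finset Datum :=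
  ((Finset.Ioc 1 Y).filter Admissible).sigma fun _ => Finset.univ

theorem card_dataUpTo {x : ℝ} (hx : 1 ≤ x) :
    ((dataUpTo ⌊x⌋₊).card : ℝ) + 1 = partialSum weight x := by
  have h1 : 1 ∈ Finset.Ioc 0 ⌊x⌋₊ :=
    Finset.mem_Ioc.mpr ⟨one_pos, Nat.le_floor (by exact_mod_cast hx)⟩
  rw [dataUpTo, Finset.card_sigma, Nat.cast_sum, partialSum, ← Finset.sum_erase_add _ _ h1,
    weight_isMultiplicative.map_one,
    show (Finset.Ioc 0 ⌊x⌋₊).erase 1 = Finset.Ioc 1 ⌊x⌋₊ by ext; simp; omega]
  congr 1
  rw [Finset.sum_filter]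
  refine Finset.sum_congr rfl fun n _ => ?_
  rw [weight_apply]
  split_ifs with h
  · simp [Fintype.card_bool]
  · rfl

/-- **Data give fields.** -/
theorem card_dataUpTo_le {X : ℕ} {x : ℝ} (hx0 : 0 ≤ x) (hx : (720 * x) ^ 2 ≤ X) :
    (dataUpTo ⌊x⌋₊).card ≤ 2 * (wreathFields X).ncard := by
  have hmem : ∀ d ∈ dataUpTo ⌊x⌋₊, Admissible d.1 ∧ d.1 ≠ 1 ∧ (720 * d.1) ^ 2 ≤ X := fun d hd => by
    obtain ⟨hd, -⟩ := Finset.mem_sigma.mp hd
    obtain ⟨hd, ha⟩ := Finset.mem_filter.mp hd
    obtain ⟨h1, h2⟩ := Finset.mem_Ioc.mp hd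
    refine ⟨ha, h1.ne', ?_⟩
    have h3 : (d.1 : ℝ) ≤ x := (Nat.le_floor_iff hx0).mp h2
    have h4 : ((720 * d.1 : ℕ) : ℝ) ^ 2 ≤ X :=
      le_trans (pow_le_pow_left₀ (Nat.cast_nonneg _) (by push_cast; linarith) 2) hx
    exact_mod_cast h4
  calc (dataUpTo ⌊x⌋₊).card
      ≤ 2 * ((dataUpTo ⌊x⌋₊).image fun d => sextic (alphaOf d)).card :=
        Finset.card_le_mul_card_image _ 2 fun L _ => card_fibre_le _
          (fun d hd => ⟨(hmem d (Finset.mem_filter.mp hd).1).1,
            (hmem d (Finset.mem_filter.mp hd).1).2.1⟩)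
          fun d hd => (Finset.mem_filter.mp hd).2
    _ ≤ 2 * (wreathFields X).ncard := by
        refine Nat.mul_le_mul_left 2 ?_
        rw [← Set.ncard_coe_finset]
        refine Set.ncard_le_ncard ?_ (finite_wreathFields X)
        intro L hL
        obtain ⟨d, hd, rfl⟩ := Finset.mem_image.mp hL
        obtain ⟨h1, h2, h3⟩ := hmem d hd
        exact sextic_mem h1 h2 h3

/-- **`≫ X^{1/2} log X` fields.** -/
theorem exists_lower_bound : ∃ c : ℝ, 0 < c ∧ ∀ᶠ X : ℕ in atTop,
    c * Real.sqrt X * Real.log X ≤ (wreathFields X).ncard := by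
  obtain ⟨c, hc, hT⟩ := exists_weight_mean
  refine ⟨c / 23040, by positivity, ?_⟩
  have hx : Tendsto (fun X : ℕ => Real.sqrt X / 720) atTop atTop :=
    (Real.tendsto_sqrt_atTop.comp tendsto_natCast_atTop_atTop).atTop_div_const (by norm_num)
  filter_upwards [hx.eventually (hT.eventually (Ioi_mem_nhds (half_lt_self hc))),
    hx.eventually_ge_atTop (max (Real.exp 1) (4 / c)), hx.eventually_ge_atTop 720] with X h1 h2 h3
  set x := Real.sqrt X / 720
  have hxe : Real.exp 1 ≤ x := (le_max_left _ _).trans h2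
  have hx0 : 0 < x := (Real.exp_pos 1).trans_le hxe
  have hx1 : 1 ≤ x := le_trans (Real.one_le_exp zero_le_one) hxe
  have hlog : 1 ≤ Real.log x := by rw [← Real.log_exp 1]; exact Real.log_le_log (Real.exp_pos 1) hxe
  have hsq : (720 * x) ^ 2 = X := by
    rw [show 720 * x = Real.sqrt X by simp only [x]; ring, Real.sq_sqrt (Nat.cast_nonneg X)]
  have hlogX : Real.log X ≤ 4 * Real.log x := by
    rw [← hsq, Real.log_pow, Real.log_mul (by norm_num) hx0.ne']
    have : Real.log 720 ≤ Real.log x := Real.log_le_log (by norm_num) h3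
    push_cast
    linarith
  have hcx : 4 ≤ c * x := by
    have := (le_max_right _ _).trans h2
    rwa [div_le_iff₀ hc, mul_comm] at this
  have hS : c / 2 * (x * Real.log x) ≤ partialSum weight x := by
    have h1' : c / 2 < partialSum weight x / (x * Real.log x) := h1
    rw [lt_div_iff₀ (mul_pos hx0 (by linarith))] at h1'
    exact h1'.le
  have hbig : (4 : ℝ) ≤ c * (x * Real.log x) := by
    calc (4 : ℝ) ≤ c * x := hcx
      _ ≤ c * (x * Real.log x) := by
        refine mul_le_mul_of_nonneg_left ?_ hc.le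
        exact le_mul_of_one_le_right hx0.le hlog
  have hcount : partialSum weight x - 1 ≤ 2 * ((wreathFields X).ncard : ℝ) := by
    rw [← card_dataUpTo hx1, add_sub_cancel_right]
    exact_mod_cast card_dataUpTo_le hx0.le hsq.le
  have hsqrt : Real.sqrt X = 720 * x := by simp only [x]; ring
  have hfinal : c / 23040 * Real.sqrt X * Real.log X ≤
      c / 23040 * (720 * x) * (4 * Real.log x) := by
    rw [hsqrt]
    exact mul_le_mul_of_nonneg_left hlogX (by positivity)
  nlinarith

/-- **The ratio to Malle's prediction `X^{1/2}` is unbounded.** -/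
theorem tendsto_div_sqrt :
    Tendsto (fun X : ℕ => ((wreathFields X).ncard : ℝ) / Real.sqrt X) atTop atTop := by
  obtain ⟨c, hc, h⟩ := exists_lower_bound
  refine tendsto_atTop_mono' atTop ?_
    ((Real.tendsto_log_atTop.comp tendsto_natCast_atTop_atTop).const_mul_atTop hc)
  filter_upwards [h, eventually_gt_atTop 0] with X hX hX0
  rw [le_div_iff₀ (Real.sqrt_pos.mpr (Nat.cast_pos.mpr hX0))]
  calc c * Real.log (X : ℝ) * Real.sqrt X = c * Real.sqrt X * Real.log X := by ring
    _ ≤ _ := hX

/-- **No constant times `X^{1/2}` bounds the count.** -/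
theorem no_sqrt_bound (C : ℝ) :
    ¬∀ᶠ X : ℕ in atTop, ((wreathFields X).ncard : ℝ) ≤ C * Real.sqrt X := fun h => by
  obtain ⟨X, ⟨hX, hX0⟩, hC⟩ := ((h.and (eventually_gt_atTop 0)).and
    (tendsto_div_sqrt.eventually_gt_atTop C)).exists
  rw [lt_div_iff₀ (Real.sqrt_pos.mpr (Nat.cast_pos.mpr hX0))] at hC
  linarith

end FA.KlunersMalle
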