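import Fermat.Agent.KlunersMalle.Disc
import Mathlib.Data.Nat.Squarefree

/-!
# The data

A squarefree `n` with all prime factors `1 (mod 3)`, a prime above each of them and an exponent `1`
or `2` give `α`; the field `ℚ(ω, α^{1/3})` determines them up to replacing `α` by `α²`.
-/

set_option autoImplicit false
set_option linter.style.haveILetI false

noncomputable section

open scoped Classical
open QuadraticAlgebra (norm)

namespace FA.KlunersMalle

/-- Squarefree, all prime factors `1 (mod 3)`. -/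
def Admissible (n : ℕ) : Prop := Squarefree n ∧ ∀ p ∈ n.primeFactors, p % 3 = 1

/-- For each prime factor a prime above it and an exponent. -/
abbrev Datum : Type := (n : ℕ) × (n.primeFactors → Bool × Bool)

/-- The exponent. -/
def expOf (t : Bool) : ℕ := if t then 2 else 1

theorem expOf_pos (t : Bool) : 0 < expOf t := by cases t <;> simp [expOf]

theorem expOf_lt (t : Bool) : expOf t < 3 := by cases t <;> simp [expOf]

theorem expOf_injective : Function.Injective expOf := by
  intro s t h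
  cases s <;> cases t <;> simp_all [expOf]

/-- `α`. -/
def alphaOf (d : Datum) : Eisen := ∏ p, primeOf p.1 (d.2 p).1 ^ expOf (d.2 p).2

/-- The cube part of `α²`. -/
def cubePart (d : Datum) : Eisen := ∏ p, primeOf p.1 (d.2 p).1 ^ (expOf (d.2 p).2 - 1)

/-- The conjugate datum. -/
def flipDatum (d : Datum) : Datum := ⟨d.1, fun p => (!(d.2 p).1, (d.2 p).2)⟩

/-- The exponent of the prime `s` above `l` in `α`. -/
def expAt (d : Datum) (l : ℕ) (s : Bool) : ℕ :=
  if h : l ∈ d.1.primeFactors then (if (d.2 ⟨l, h⟩).1 = s then expOf (d.2 ⟨l, h⟩).2 else 0) else 0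

variable {d : Datum}

theorem primeOf_ne_zero (hd : Admissible d.1) (p : d.1.primeFactors) (s : Bool) :
    primeOf p.1 s ≠ 0 :=
  (prime_primeOf (Nat.prime_of_mem_primeFactors p.2) (hd.2 p p.2) s).ne_zero

theorem alphaOf_ne_zero (hd : Admissible d.1) : alphaOf d ≠ 0 :=
  Finset.prod_ne_zero_iff.mpr fun p _ => pow_ne_zero _ (primeOf_ne_zero hd p _)

theorem cubePart_ne_zero (hd : Admissible d.1) : cubePart d ≠ 0 :=
  Finset.prod_ne_zero_iff.mpr fun p _ => pow_ne_zero _ (primeOf_ne_zero hd p _)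

theorem star_alphaOf (d : Datum) : star (alphaOf d) = alphaOf (flipDatum d) := by
  rw [alphaOf, ← starRingAut_apply, map_prod]
  refine Finset.prod_congr rfl fun p _ => ?_
  rw [starRingAut_apply, star_pow, star_primeOf]
  rfl

theorem cube_dvd (d : Datum) : cubePart d ^ 3 ∣ alphaOf d ^ 2 := by
  rw [cubePart, alphaOf, ← Finset.prod_pow, ← Finset.prod_pow]
  refine Finset.prod_dvd_prod_of_dvd _ _ fun p _ => ?_
  rw [← pow_mul, ← pow_mul]
  exact pow_dvd_pow _ (by have := expOf_lt (d.2 p).2; omega)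

theorem norm_alphaOf (hd : Admissible d.1) : norm (alphaOf d) = d.1 * norm (cubePart d) := by
  have h : ((∏ p : d.1.primeFactors, p.1 : ℕ) : ℤ) = d.1 := by
    rw [Finset.prod_coe_sort d.1.primeFactors (fun p => p),
      Nat.prod_primeFactors_of_squarefree hd.1]
  rw [← h, alphaOf, cubePart, map_prod, map_prod, Nat.cast_prod, ← Finset.prod_mul_distrib]
  refine Finset.prod_congr rfl fun p _ => ?_
  rw [map_pow, map_pow, norm_primeOf (Nat.prime_of_mem_primeFactors p.2) (hd.2 p p.2),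
    ← pow_succ', Nat.sub_add_cancel (expOf_pos _)]

theorem ord_alphaOf (hd : Admissible d.1) {l : ℕ} (hl : l.Prime) (h3 : l % 3 = 1) (s : Bool) :
    ord (primeOf l s) (alphaOf d) = expAt d l s := by
  rw [alphaOf, ord_prod (prime_primeOf hl h3 s) _ _ fun p _ =>
    pow_ne_zero _ (primeOf_ne_zero hd p _)]
  have hterm : ∀ p : d.1.primeFactors, ord (primeOf l s) (primeOf p.1 (d.2 p).1 ^ expOf (d.2 p).2) =
      expOf (d.2 p).2 * if l = p.1 ∧ s = (d.2 p).1 then 1 else 0 := fun p => by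
    rw [ord_pow (prime_primeOf hl h3 s) (primeOf_ne_zero hd p _),
      ord_primeOf hl (Nat.prime_of_mem_primeFactors p.2) h3 (hd.2 p p.2)]
  rw [Finset.sum_congr rfl fun p _ => hterm p, expAt]
  split_ifs with hm hs
  · rw [Finset.sum_eq_single ⟨l, hm⟩ (fun p _ hp => by
      rw [if_neg fun h => hp (Subtype.ext h.1.symm), mul_zero]) (by simp)]
    simp [hs]
  · refine Finset.sum_eq_zero fun p _ => ?_
    rw [if_neg fun h => hs ?_, mul_zero]
    obtain rfl : p = ⟨l, hm⟩ := Subtype.ext h.1.symm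
    exact h.2.symm
  · exact Finset.sum_eq_zero fun p _ => by
      rw [if_neg fun h : l = p.1 ∧ _ => hm (h.1 ▸ p.2), mul_zero]

/-- **Orders under `a' = u³ a^k`.** -/
theorem ord_relation {a a' : Eisen} (ha : a ≠ 0) (ha' : a' ≠ 0) {u : ℂ} (hu : u ∈ baseField) {k : ℕ}
    (he : toC a' = u ^ 3 * toC a ^ k) {q : Eisen} (hq : Prime q) :
    ord q a' ≡ k * ord q a [MOD 3] := by
  obtain ⟨x, y, hy, hxy⟩ := exists_fraction hu
  have h : a' * y ^ 3 = x ^ 3 * a ^ k := toC_injective (by
    rw [map_mul, map_mul, map_pow, map_pow, map_pow, he, ← hxy]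
    ring)
  have hx : x ≠ 0 := fun h0 => by
    rw [h0, zero_pow three_ne_zero, zero_mul] at h
    exact mul_ne_zero ha' (pow_ne_zero 3 hy) h
  have h' := congrArg (ord q) h
  rw [ord_mul hq ha' (pow_ne_zero 3 hy), ord_mul hq (pow_ne_zero 3 hx) (pow_ne_zero k ha),
    ord_pow hq hy, ord_pow hq hx, ord_pow hq ha] at h'
  unfold Nat.ModEq
  omega

theorem expAt_self (d : Datum) (p : d.1.primeFactors) :
    expAt d p.1 (d.2 p).1 = expOf (d.2 p).2 := by
  rw [expAt, dif_pos p.2, if_pos rfl]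

theorem expAt_lt (d : Datum) (l : ℕ) (s : Bool) : expAt d l s < 3 := by
  rw [expAt]
  split_ifs
  exacts [expOf_lt _, by norm_num, by norm_num]

theorem exists_prime_factor (hd : Admissible d.1) (hne : d.1 ≠ 1) : Nonempty d.1.primeFactors := by
  obtain ⟨p, hp, hdvd⟩ := Nat.exists_prime_and_dvd hne
  exact ⟨⟨p, Nat.mem_primeFactors.mpr ⟨hp, hdvd, hd.1.ne_zero⟩⟩⟩

theorem generic_alphaOf (hd : Admissible d.1) (hne : d.1 ≠ 1) : Generic (alphaOf d) := by
  intro u hu k _ he
  obtain ⟨p⟩ := exists_prime_factor hd hne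
  have hp := Nat.prime_of_mem_primeFactors p.2
  have h := ord_relation (alphaOf_ne_zero hd) (alphaOf_ne_zero (d := flipDatum d) hd) hu
    (k := k) (by rw [← star_alphaOf, ← conj_toC, he]) (prime_primeOf hp (hd.2 p p.2) (!(d.2 p).1))
  rw [ord_alphaOf (d := flipDatum d) hd hp (hd.2 p p.2), ord_alphaOf hd hp (hd.2 p p.2)] at h
  have h1 : expAt (flipDatum d) p.1 (!(d.2 p).1) = expOf (d.2 p).2 := expAt_self (flipDatum d) p
  have h2 : expAt d p.1 (!(d.2 p).1) = 0 := by
    rw [expAt, dif_pos p.2, if_neg (by simp)]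
  rw [h1, h2, mul_zero] at h
  have := expOf_pos (d.2 p).2
  have := expOf_lt (d.2 p).2
  unfold Nat.ModEq at h
  omega

/-- **A datum is determined by its exponents.** -/
theorem datum_ext {d d' : Datum} (hd : Admissible d.1) (hd' : Admissible d'.1)
    (h : ∀ l, l.Prime → l % 3 = 1 → ∀ s, expAt d l s = expAt d' l s) : d = d' := by
  have hsub : ∀ d d' : Datum, Admissible d.1 →
      (∀ l, l.Prime → l % 3 = 1 → ∀ s, expAt d l s = expAt d' l s) →
      d.1.primeFactors ⊆ d'.1.primeFactors := fun e e' he hh l hl => by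
    by_contra hl'
    have h' := hh l (Nat.prime_of_mem_primeFactors hl) (he.2 l hl) (e.2 ⟨l, hl⟩).1
    rw [expAt_self e ⟨l, hl⟩] at h'
    rw [expAt, dif_neg hl'] at h'
    exact (expOf_pos _).ne' h'
  have heq := Finset.Subset.antisymm (hsub d d' hd h)
    (hsub d' d hd' fun l hl h3 s => (h l hl h3 s).symm)
  have hn : d.1 = d'.1 := by
    rw [← Nat.prod_primeFactors_of_squarefree hd.1, ← Nat.prod_primeFactors_of_squarefree hd'.1,
      heq]
  obtain ⟨n, c⟩ := d
  obtain ⟨n', c'⟩ := d'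
  obtain rfl : n = n' := hn
  congr 1
  funext p
  have h' := h p.1 (Nat.prime_of_mem_primeFactors p.2) (hd.2 p p.2) (c p).1
  rw [expAt_self ⟨n, c⟩ p, expAt, dif_pos p.2] at h'
  split_ifs at h' with hs
  · exact Prod.ext hs.symm (expOf_injective h')
  · exact absurd h' (expOf_pos _).ne'

/-- **The field determines the datum up to a power.** -/
theorem exists_power {d d' : Datum} (hd : Admissible d.1) (hd' : Admissible d'.1) (hne : d.1 ≠ 1)
    (hne' : d'.1 ≠ 1) (h : sextic (alphaOf d') = sextic (alphaOf d)) :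
    ∃ k : ℕ, (k = 1 ∨ k = 2) ∧
      ∀ l, l.Prime → l % 3 = 1 → ∀ s, expAt d' l s ≡ k * expAt d l s [MOD 3] := by
  obtain ⟨u, hu, k, hk, he⟩ := (generic_alphaOf hd hne).exists_mul_pow
    (h ▸ theta_mem (alphaOf d')) (theta_pow_three_mem _)
  have hrel : toC (alphaOf d') = u ^ 3 * toC (alphaOf d) ^ k := by
    rw [← theta_pow_three, he, mul_pow, ← pow_mul, mul_comm k, pow_mul, theta_pow_three]
  have hall : ∀ l, l.Prime → l % 3 = 1 → ∀ s, expAt d' l s ≡ k * expAt d l s [MOD 3] :=
    fun l hl h3 s => by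
      rw [← ord_alphaOf hd' hl h3, ← ord_alphaOf hd hl h3]
      exact ord_relation (alphaOf_ne_zero hd) (alphaOf_ne_zero hd') hu hrel (prime_primeOf hl h3 s)
  refine ⟨k, ?_, hall⟩
  rcases (show k = 0 ∨ k = 1 ∨ k = 2 by omega) with rfl | h12
  · obtain ⟨p⟩ := exists_prime_factor hd' hne'
    have h' := hall p.1 (Nat.prime_of_mem_primeFactors p.2) (hd'.2 p p.2) (d'.2 p).1
    rw [expAt_self, zero_mul] at h'
    have := expOf_pos (d'.2 p).2
    have := expOf_lt (d'.2 p).2
    unfold Nat.ModEq at h'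
    omega
  · exact h12

/-- **At most two data give the same field.** -/
theorem card_fibre_le (S : Finset Datum) (hS : ∀ d ∈ S, Admissible d.1 ∧ d.1 ≠ 1)
    {L : IntermediateField ℚ ℂ} (hL : ∀ d ∈ S, sextic (alphaOf d) = L) : S.card ≤ 2 := by
  rcases S.eq_empty_or_nonempty with rfl | ⟨d₀, hd₀⟩
  · simp
  obtain ⟨ha₀, hne₀⟩ := hS d₀ hd₀
  choose k hk12 hk using fun d : S =>
    exists_power ha₀ (hS d.1 d.2).1 hne₀ (hS d.1 d.2).2 ((hL d.1 d.2).trans (hL d₀ hd₀).symm)
  rw [← Fintype.card_coe S]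
  refine (Fintype.card_le_of_injective (fun d => decide (k d = 1)) fun d d' h => ?_).trans_eq
    Fintype.card_bool
  have hkk : k d = k d' := by
    simp only [decide_eq_decide] at h
    rcases hk12 d with h1 | h1 <;> rcases hk12 d' with h2 | h2 <;> rw [h1, h2] at h ⊢ <;> simp_all
  refine Subtype.ext (datum_ext (hS d.1 d.2).1 (hS d'.1 d'.2).1 fun l hl h3 s => ?_)
  have e1 := hk d l hl h3 s
  rw [hkk] at e1
  exact (e1.trans (hk d' l hl h3 s).symm).eq_of_lt_of_lt (expAt_lt _ _ _) (expAt_lt _ _ _)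

end FA.KlunersMalle
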