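import Fermat.Agent.KlunersMalle.Fields
import Mathlib.NumberTheory.NumberField.Discriminant.Basic

/-!
# The discriminant

The integers `ω^i {1, θ, θ²/b}` with `b³ ∣ a²` are a basis of `L` whose embeddings have absolute
values independent of the embedding, so `|d_L| ≤ (6! n)²` for `N a = n N b`.
-/

set_option autoImplicit false
set_option linter.style.haveILetI false

noncomputable section

open Polynomial IntermediateField Module NumberField
open scoped Classical

namespace FA.KlunersMalle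

/-- **The discriminant through independent integers.** -/
theorem natAbs_discr_le_of_bounds {F : Type*} [Field F] [NumberField F] {ι : Type*} [Fintype ι]
    (hι : finrank ℚ F = Fintype.card ι) {v : ι → F} (hint : ∀ i, IsIntegral ℤ (v i))
    (hli : LinearIndependent ℚ v) {R : ι → ℝ} (hR : ∀ (σ : F →ₐ[ℚ] ℂ) i, ‖σ (v i)‖ ≤ R i) :
    ((discr F).natAbs : ℝ) ≤ ((Fintype.card ι).factorial * ∏ i, R i) ^ 2 := by
  have hcard : Fintype.card ι = Fintype.card (Free.ChooseBasisIndex ℤ (𝓞 F)) := by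
    rw [← finrank_eq_card_chooseBasisIndex, RingOfIntegers.rank, hι]
  set e := Fintype.equivOfCardEq hcard
  set b : Basis ι ℚ F := (integralBasis F).reindex e.symm with hb
  have hdisc : Algebra.discr ℚ b = (discr F : ℚ) := by
    rw [hb, Basis.coe_reindex, Equiv.symm_symm, coe_discr]
    exact Algebra.discr_reindex ℚ (integralBasis F) e.symm
  set P : Matrix ι ι ℤ := Matrix.of fun i j =>
    (RingOfIntegers.basis F).repr (⟨v j, hint j⟩ : 𝓞 F) (e i) with hP
  have hvP : Matrix.vecMul (b : ι → F) ((P.map ((↑) : ℤ → ℚ)).map (algebraMap ℚ F)) = v := by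
    funext j
    simp only [Matrix.vecMul, dotProduct, Matrix.map_apply, hP, Matrix.of_apply, hb,
      Basis.coe_reindex, Equiv.symm_symm, Function.comp_apply]
    refine (e.sum_comp fun i => integralBasis F i *
      algebraMap ℚ F (((RingOfIntegers.basis F).repr (⟨v j, hint j⟩ : 𝓞 F) i : ℤ) : ℚ)).trans ?_
    conv_rhs => rw [show v j = algebraMap (𝓞 F) F ⟨v j, hint j⟩ from rfl,
      ← (integralBasis F).sum_repr (algebraMap (𝓞 F) F ⟨v j, hint j⟩)]
    refine Finset.sum_congr rfl fun i _ => ?_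
    rw [integralBasis_repr_apply, Algebra.smul_def, mul_comm]
    rfl
  have h1 := Algebra.discr_of_matrix_vecMul (A := ℚ) (b : ι → F) (P.map ((↑) : ℤ → ℚ))
  rw [hvP, hdisc, show (P.map ((↑) : ℤ → ℚ)).det = (P.det : ℚ) from
    ((Int.castRingHom ℚ).map_det P).symm] at h1
  have hPne : P.det ≠ 0 := fun h0 => by
    rw [h0, Int.cast_zero, zero_pow two_ne_zero, zero_mul] at h1
    haveI : Nonempty ι := Fintype.card_pos_iff.mp (hι ▸ finrank_pos)
    refine Algebra.discr_not_zero_of_basis ℚ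
      (basisOfLinearIndependentOfCardEqFinrank hli hι.symm) ?_
    rw [coe_basisOfLinearIndependentOfCardEqFinrank, h1]
  let eK : ι ≃ (F →ₐ[ℚ] ℂ) := Fintype.equivOfCardEq (by rw [AlgHom.card, hι])
  have h2 := Algebra.discr_eq_det_embeddingsMatrixReindex_pow_two ℚ ℂ v eK
  rw [h1] at h2
  have h3 : ‖(Algebra.embeddingsMatrixReindex ℚ ℂ v eK).det‖ ≤
      (Fintype.card ι).factorial * ∏ i, R i := by
    rw [Matrix.det_apply]
    refine (norm_sum_le_of_le _ (n := fun _ => ∏ i, R i) fun π _ => ?_).trans_eq (by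
      rw [Finset.sum_const, Finset.card_univ, Fintype.card_perm, nsmul_eq_mul])
    rw [Units.smul_def, zsmul_eq_mul, norm_mul, Complex.norm_intCast,
      show |((Equiv.Perm.sign π : ℤ) : ℝ)| = 1 by
        rcases Int.units_eq_one_or (Equiv.Perm.sign π) with h | h <;> rw [h] <;> simp,
      one_mul, norm_prod]
    refine (Finset.prod_le_prod (fun i _ => norm_nonneg _) fun i _ => ?_).trans_eq
      (Equiv.prod_comp π R)
    exact hR (eK i) (π i)
  have h5 := congrArg (‖·‖) h2
  simp only [map_mul, map_pow, map_intCast, norm_mul, norm_pow, Complex.norm_intCast] at h5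
  have h6 : (1 : ℝ) ≤ |((P.det : ℤ) : ℝ)| ^ 2 :=
    one_le_pow₀ (by exact_mod_cast Int.one_le_abs hPne)
  rw [Nat.cast_natAbs, Int.cast_abs]
  calc |((discr F : ℤ) : ℝ)| ≤ |((P.det : ℤ) : ℝ)| ^ 2 * |((discr F : ℤ) : ℝ)| :=
        le_mul_of_one_le_left (abs_nonneg _) h6
    _ = ‖(Algebra.embeddingsMatrixReindex ℚ ℂ v eK).det‖ ^ 2 := h5
    _ ≤ _ := pow_le_pow_left₀ (norm_nonneg _) h3 2

theorem norm_zpow3 (i : ZMod 3) : ‖zpow3 i‖ = 1 :=
  Complex.norm_eq_one_of_pow_eq_one (zpow3_pow_three i) three_ne_zero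

theorem norm_map_toC {E : IntermediateField ℚ ℂ} (f : E →ₐ[ℚ] ℂ) (hw : zeta3 ∈ E) (b : Eisen)
    {x : E} (hx : (x : ℂ) = toC b) : ‖f x‖ = ‖toC b‖ := by
  have he : x = (b.re : E) + (b.im : E) * ⟨zeta3, hw⟩ := Subtype.ext (by simp [hx, toC_apply])
  rw [he, map_add, map_mul, map_intCast, map_intCast]
  rcases map_zeta3 f hw with h | h
  · rw [h, toC_apply]
  · rw [h, ← conj_zeta3, ← Complex.norm_conj (toC b), toC_apply, map_add, map_mul, map_intCast,
      map_intCast]

theorem isIntegral_toC (z : Eisen) : IsIntegral ℤ (toC z) :=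
  (Algebra.IsIntegral.isIntegral z).map toC

theorem rat_smul_eq (q : ℚ) (x : ℂ) : q • x = (q : ℂ) * x := by
  rw [Algebra.smul_def]
  rfl

variable {a b : Eisen}

/-- Independence over `ℚ(ω)`. -/
theorem Generic.indep (h : Generic a) {x y z : ℂ} (hx : x ∈ baseField) (hy : y ∈ baseField)
    (hz : z ∈ baseField) (he : x + y * theta a + z * theta a ^ 2 = 0) :
    x = 0 ∧ y = 0 ∧ z = 0 := by
  set g : baseField[X] := C ⟨x, hx⟩ + C ⟨y, hy⟩ * X + C ⟨z, hz⟩ * X ^ 2 with hg
  have hg0 : g = 0 := by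
    by_contra hne
    have hle := natDegree_le_of_dvd (minpoly.dvd baseField (theta a) (p := g) (by
      rw [hg]; simp [he])) hne
    rw [minpoly_root (theta_pow_three_mem a) h.ne_cube, natDegree_X_pow_sub_C] at hle
    have : g.natDegree ≤ 2 := by
      rw [hg]
      refine (natDegree_add_le _ _).trans (max_le ((natDegree_add_le _ _).trans (max_le ?_ ?_))
        (natDegree_C_mul_X_pow_le _ _))
      · rw [natDegree_C]; norm_num
      · exact (natDegree_C_mul_le _ _).trans (natDegree_X_le.trans one_le_two)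
    omega
  have hc := fun k => congrArg Subtype.val (congrArg (fun q : baseField[X] => q.coeff k) hg0)
  refine ⟨?_, ?_, ?_⟩
  · simpa [hg] using hc 0
  · simpa [hg, coeff_C] using hc 1
  · simpa [hg, coeff_C, coeff_X] using hc 2

theorem rat_indep {s t : ℚ} (he : (s : ℂ) + (t : ℂ) * zeta3 = 0) : s = 0 ∧ t = 0 := by
  have h1 := congrArg Complex.im he
  simp [zeta3] at h1
  obtain rfl : t = 0 := h1
  exact ⟨by simpa using he, rfl⟩

/-- The basis vectors. -/
def basisVec (a b : Eisen) (k : Fin 2 × Fin 3) : ℂ :=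
  zeta3 ^ (k.1 : ℕ) * ![1, theta a, theta a ^ 2 / toC b] k.2

theorem basisVec_mem (a b : Eisen) (k : Fin 2 × Fin 3) : basisVec a b k ∈ sextic a := by
  have hle : baseField ≤ sextic a := adjoin_le_iff.mpr (by simpa using zeta3_mem_sextic a)
  refine mul_mem (pow_mem (zeta3_mem_sextic a) _) ?_
  obtain ⟨-, j⟩ := k
  fin_cases j
  · exact one_mem _
  · exact theta_mem a
  · exact div_mem (pow_mem (theta_mem a) 2) (hle (toC_mem b))

theorem isIntegral_basisVec (hb : b ≠ 0) (hd : b ^ 3 ∣ a ^ 2) (k : Fin 2 × Fin 3) :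
    IsIntegral ℤ (basisVec a b k) := by
  refine IsIntegral.mul (IsIntegral.pow (IsIntegral.of_pow (by norm_num : (0 : ℕ) < 3)
    (by rw [zeta3_pow_three]; exact isIntegral_one)) _) ?_
  obtain ⟨-, j⟩ := k
  fin_cases j
  · exact isIntegral_one
  · exact IsIntegral.of_pow (by norm_num : (0 : ℕ) < 3)
      (by rw [show (![1, theta a, theta a ^ 2 / toC b] : Fin 3 → ℂ) ⟨1, by norm_num⟩ = theta a
        from rfl, theta_pow_three]; exact isIntegral_toC a)
  · obtain ⟨c, hc⟩ := hd
    refine IsIntegral.of_pow (by norm_num : (0 : ℕ) < 3) ?_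
    rw [show (![1, theta a, theta a ^ 2 / toC b] : Fin 3 → ℂ) ⟨2, by norm_num⟩ =
      theta a ^ 2 / toC b from rfl, div_pow, ← pow_mul, mul_comm 2 3, pow_mul, theta_pow_three,
      ← map_pow, hc, map_mul, map_pow, mul_div_cancel_left₀ _
        (pow_ne_zero _ (mt toC_eq_zero.mp hb))]
    exact isIntegral_toC c

theorem norm_map_basisVec (h : Generic a) (f : sextic a →ₐ[ℚ] ℂ) (k : Fin 2 × Fin 3) :
    ‖f ⟨basisVec a b k, basisVec_mem a b k⟩‖ = ‖basisVec a b k‖ := by
  have hle : baseField ≤ sextic a := adjoin_le_iff.mpr (by simpa using zeta3_mem_sextic a)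
  have hω : ‖f ⟨zeta3, zeta3_mem_sextic a⟩‖ = ‖zeta3‖ := by
    rcases map_zeta3 f (zeta3_mem_sextic a) with h' | h' <;> rw [h']
    rw [← conj_zeta3, Complex.norm_conj]
  have hθ : ‖f ⟨theta a, theta_mem a⟩‖ = ‖theta a‖ := by
    rcases map_root f (zeta3_mem_sextic a) (theta_mem a) (theta_pow_three a) h.theta_ne_zero with
      ⟨-, i, hi⟩ | ⟨-, i, hi⟩ <;> rw [hi] <;> simp [norm_zpow3]
  have hb : ‖f ⟨toC b, hle (toC_mem b)⟩‖ = ‖toC b‖ :=
    norm_map_toC f (zeta3_mem_sextic a) b rfl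
  obtain ⟨i, j⟩ := k
  have hsplit : (⟨basisVec a b (i, j), basisVec_mem a b _⟩ : sextic a) =
      ⟨zeta3, zeta3_mem_sextic a⟩ ^ (i : ℕ) * ![1, ⟨theta a, theta_mem a⟩,
        ⟨theta a, theta_mem a⟩ ^ 2 / ⟨toC b, hle (toC_mem b)⟩] j := by
    refine Subtype.ext ?_
    fin_cases j <;> simp [basisVec]
  rw [hsplit, map_mul, map_pow, norm_mul, norm_pow, hω]
  fin_cases j <;> simp [basisVec, hθ, hb, -SubmonoidClass.mk_pow]

theorem linearIndependent_basisVec (h : Generic a) (hb : b ≠ 0) :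
    LinearIndependent ℚ fun k => (⟨basisVec a b k, basisVec_mem a b k⟩ : sextic a) := by
  rw [Fintype.linearIndependent_iff]
  intro g hg
  have he : ∑ k : Fin 2 × Fin 3, (g k : ℂ) * basisVec a b k = 0 := by
    simpa [rat_smul_eq] using congrArg Subtype.val hg
  simp only [Fintype.sum_prod_type, Fin.sum_univ_two, Fin.sum_univ_three] at he
  simp only [basisVec, Matrix.cons_val, Fin.val_zero, Fin.val_one, pow_zero, pow_one, one_mul,
    mul_one] at he
  have hm : ∀ i j, (g i : ℂ) + (g j : ℂ) * zeta3 ∈ baseField := fun i j =>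
    add_mem (SubfieldClass.ratCast_mem _ _) (mul_mem (SubfieldClass.ratCast_mem _ _) zeta3_mem)
  obtain ⟨h0, h1, h2⟩ := h.indep (hm (0, 0) (1, 0)) (hm (0, 1) (1, 1))
    (z := ((g (0, 2) : ℂ) + (g (1, 2) : ℂ) * zeta3) / toC b)
    (div_mem (hm _ _) (toC_mem b)) (by linear_combination he)
  rw [div_eq_zero_iff, or_iff_left (mt toC_eq_zero.mp hb)] at h2
  intro k
  obtain ⟨i, j⟩ := k
  fin_cases i <;> fin_cases j
  exacts [(rat_indep h0).1, (rat_indep h1).1, (rat_indep h2).1, (rat_indep h0).2,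
    (rat_indep h1).2, (rat_indep h2).2]

/-- **The bound.** -/
theorem natAbs_discr_sextic_le (h : Generic a) [NumberField (sextic a)] (hb : b ≠ 0)
    (hd : b ^ 3 ∣ a ^ 2) {n : ℕ} (hn : QuadraticAlgebra.norm a = n * QuadraticAlgebra.norm b) :
    (discr (sextic a)).natAbs ≤ (720 * n) ^ 2 := by
  have hle := natAbs_discr_le_of_bounds (F := sextic a) (ι := Fin 2 × Fin 3)
    (by rw [finrank_sextic h]; rfl)
    (fun k => (isIntegral_algHom_iff ((sextic a).val.restrictScalars ℤ)
      Subtype.val_injective).mp (isIntegral_basisVec hb hd k))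
    (linearIndependent_basisVec h hb) (R := fun k => ‖basisVec a b k‖)
    fun σ k => (norm_map_basisVec h σ k).le
  have hb' : toC b ≠ 0 := mt toC_eq_zero.mp hb
  have hprod : ∏ k : Fin 2 × Fin 3, ‖basisVec a b k‖ = n := by
    have hz : ‖zeta3‖ = 1 := by simpa [zpow3_one] using norm_zpow3 1
    have ha : ‖theta a‖ ^ 3 = ‖toC a‖ := by rw [← norm_pow, theta_pow_three]
    have hq : ‖toC a‖ ^ 2 = n * ‖toC b‖ ^ 2 := by
      rw [← Complex.normSq_eq_norm_sq, ← Complex.normSq_eq_norm_sq, normSq_toC, normSq_toC, hn]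
      push_cast
      ring
    simp only [Fintype.prod_prod_type, Fin.prod_univ_two, Fin.prod_univ_three, basisVec,
      Matrix.cons_val, Fin.val_zero, Fin.val_one, pow_zero, pow_one, one_mul, norm_mul, norm_one,
      norm_div, norm_pow, hz]
    field_simp
    linear_combination (‖theta a‖ ^ 3 + ‖toC a‖) * ha + hq
  rw [hprod, show ((Fintype.card (Fin 2 × Fin 3)).factorial : ℝ) = 720 by norm_num [Nat.factorial]]
    at hle
  exact_mod_cast hle

end FA.KlunersMalle
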