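import Fermat.Agent.ClassNumberModEight.Symbols
import Mathlib.Algebra.QuadraticAlgebra.Basic
import Mathlib.Analysis.Complex.Basic
import Mathlib.Analysis.SpecialFunctions.Sqrt
import Mathlib.GroupTheory.Perm.Cycle.Type
import Mathlib.RingTheory.Noetherian.Basic
import Mathlib.RingTheory.UniqueFactorizationDomain.Multiplicity

/-!
# Eisenstein integers

A prime `p ≡ 1 (mod 3)` is the norm of some `π = x + y ω` by Thue's lemma, and `π` divides
`a + b ω` iff `p` divides `a y - b x`, so that `π` is prime and does not divide its conjugate.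
-/

set_option autoImplicit false
set_option linter.style.haveILetI false

noncomputable section

open scoped Classical
open QuadraticAlgebra (norm norm_def algebraMap_norm_eq_mul_star)

namespace FA.KlunersMalle

/-- The Eisenstein integers `x + y ω`. -/
abbrev Eisen : Type := QuadraticAlgebra ℤ (-1) (-1)

/-- `ω`. -/
def zeta3 : ℂ := ⟨-1 / 2, Real.sqrt 3 / 2⟩

theorem zeta3_mul_self : zeta3 * zeta3 = -1 - zeta3 := by
  have h := Real.mul_self_sqrt (show (0 : ℝ) ≤ 3 by norm_num)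
  refine Complex.ext ?_ ?_
  · simp [zeta3]
    nlinarith
  · simp [zeta3]
    ring

theorem conj_zeta3 : starRingEnd ℂ zeta3 = -1 - zeta3 := by
  refine Complex.ext ?_ ?_ <;> simp [zeta3]
  ring

theorem zeta3_pow_three : zeta3 ^ 3 = 1 := by
  linear_combination (zeta3 - 1) * zeta3_mul_self

theorem zeta3_ne_one : zeta3 ≠ 1 := fun h => by
  have h' := congrArg Complex.re h
  norm_num [zeta3] at h'

/-- The embedding in `ℂ`. -/
def toC : Eisen →ₐ[ℤ] ℂ :=
  QuadraticAlgebra.lift ⟨zeta3, by rw [zeta3_mul_self]; simp; ring⟩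

theorem toC_apply (z : Eisen) : toC z = (z.re : ℂ) + (z.im : ℂ) * zeta3 := by
  rw [toC, QuadraticAlgebra.lift_apply_apply]
  simp [zsmul_eq_mul]

theorem conj_toC (z : Eisen) : starRingEnd ℂ (toC z) = toC (star z) := by
  rw [toC_apply, toC_apply, map_add, map_mul, conj_zeta3, QuadraticAlgebra.re_star,
    QuadraticAlgebra.im_star, map_intCast, map_intCast]
  push_cast
  ring

theorem norm_eq (z : Eisen) : norm z = z.re ^ 2 - z.re * z.im + z.im ^ 2 := by
  rw [norm_def]
  ring

theorem normSq_toC (z : Eisen) : Complex.normSq (toC z) = (norm z : ℤ) := by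
  apply Complex.ofReal_injective
  rw [Complex.normSq_eq_conj_mul_self, conj_toC, ← map_mul, mul_comm,
    ← algebraMap_norm_eq_mul_star, AlgHom.commutes, algebraMap_int_eq, eq_intCast,
    Complex.ofReal_intCast]

theorem toC_injective : Function.Injective toC := by
  refine (injective_iff_map_eq_zero toC).mpr fun z hz => ?_
  have h := normSq_toC z
  rw [hz, map_zero] at h
  have h' : z.re ^ 2 - z.re * z.im + z.im ^ 2 = 0 := by
    rw [← norm_eq]
    exact_mod_cast h.symm
  have h1 : z.im ^ 2 ≤ 0 := by nlinarith [sq_nonneg (2 * z.re - z.im)]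
  have h2 : z.re ^ 2 ≤ 0 := by nlinarith [sq_nonneg (z.re - 2 * z.im)]
  exact QuadraticAlgebra.ext (by simpa using sq_eq_zero_iff.mp (le_antisymm h2 (sq_nonneg _)))
    (by simpa using sq_eq_zero_iff.mp (le_antisymm h1 (sq_nonneg _)))

theorem toC_eq_zero {z : Eisen} : toC z = 0 ↔ z = 0 := by
  rw [← map_zero toC, toC_injective.eq_iff]

instance isDomain_eisen : IsDomain Eisen := toC_injective.isDomain toC.toRingHom

instance isNoetherianRing_eisen : IsNoetherianRing Eisen :=
  isNoetherian_of_tower ℤ (inferInstance : IsNoetherian ℤ Eisen)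

/-! ## Prime elements -/

section Prime

variable {p : ℕ} {π : Eisen}

theorem norm_dvd_of_dvd {z : Eisen} (h : π ∣ z) : norm π ∣ norm z := map_dvd (norm : Eisen →* ℤ) h

/-- **`π` divides `a + b ω` iff `p` divides `a y - b x`.** -/
theorem dvd_iff (hp : p.Prime) (hN : norm π = (p : ℤ)) (z : Eisen) :
    π ∣ z ↔ (p : ℤ) ∣ z.re * π.im - z.im * π.re := by
  have hp' : Prime (p : ℤ) := Nat.prime_iff_prime_int.mp hp
  rw [norm_eq] at hN
  constructor
  · rintro ⟨w, rfl⟩
    refine ⟨-w.im, ?_⟩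
    rw [QuadraticAlgebra.re_mul, QuadraticAlgebra.im_mul]
    linear_combination (-w.im) * hN
  · intro h
    have hy : ¬(p : ℤ) ∣ π.im := fun ⟨k, hk⟩ => by
      have hx : (p : ℤ) ∣ π.re := hp'.dvd_of_dvd_pow (n := 2)
        ⟨1 + π.re * k - k * π.im, by rw [hk] at hN ⊢; linear_combination hN⟩
      obtain ⟨m, hm⟩ := hx
      rw [hk, hm] at hN
      have h1 : (p : ℤ) * (p * (m ^ 2 - m * k + k ^ 2)) = p * 1 := by linear_combination hN
      exact hp'.not_isUnit (isUnit_of_dvd_one ⟨_, (mul_left_cancel₀ hp'.ne_zero h1).symm⟩)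
    obtain ⟨w₂, hw₂⟩ : (p : ℤ) ∣ (z * star π).im := by
      rw [QuadraticAlgebra.im_mul, QuadraticAlgebra.im_star, QuadraticAlgebra.re_star]
      rw [show z.re * -π.im + z.im * (π.re + -1 * π.im) + -1 * z.im * -π.im =
        -(z.re * π.im - z.im * π.re) by ring]
      exact dvd_neg.mpr h
    obtain ⟨w₁, hw₁⟩ : (p : ℤ) ∣ (z * star π).re := by
      refine (hp'.dvd_or_dvd (a := π.im) ?_).resolve_left hy
      have he : π.im * (z * star π).re = (z.re * π.im - z.im * π.re) * (π.re - π.im) +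
          z.im * (π.re ^ 2 - π.re * π.im + π.im ^ 2) := by
        rw [QuadraticAlgebra.re_mul, QuadraticAlgebra.re_star, QuadraticAlgebra.im_star]
        ring
      rw [he, hN]
      exact dvd_add (h.mul_right _) (dvd_mul_left _ _)
    refine ⟨⟨w₁, w₂⟩, ?_⟩
    have hc : z * star π = (p : Eisen) * ⟨w₁, w₂⟩ := by
      refine QuadraticAlgebra.ext ?_ ?_ <;> simp [hw₁, hw₂]
    have hps : (p : Eisen) = π * star π := by
      rw [← algebraMap_norm_eq_mul_star, norm_eq, hN, map_natCast]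
    refine mul_right_cancel₀ (b := star π) ?_ (hc.trans (by rw [hps]; ring))
    intro h0
    rw [h0, mul_zero] at hps
    exact hp.ne_zero (by simpa using congrArg QuadraticAlgebra.re hps)

theorem prime_of_norm (hp : p.Prime) (hN : norm π = (p : ℤ)) : Prime π := by
  have hp' : Prime (p : ℤ) := Nat.prime_iff_prime_int.mp hp
  refine ⟨fun h => ?_, fun h => ?_, fun z z' h => ?_⟩
  · rw [h, QuadraticAlgebra.norm_zero] at hN
    exact hp'.ne_zero hN.symm
  · have hu := h.map (norm : Eisen →* ℤ)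
    rw [hN] at hu
    exact hp'.not_isUnit hu
  · rw [dvd_iff hp hN] at h
    rw [dvd_iff hp hN, dvd_iff hp hN]
    refine hp'.dvd_or_dvd ?_
    rw [norm_eq] at hN
    have he : (z.re * π.im - z.im * π.re) * (z'.re * π.im - z'.im * π.re) =
        π.im * ((z * z').re * π.im - (z * z').im * π.re) + z.im * z'.im * p := by
      rw [QuadraticAlgebra.re_mul, QuadraticAlgebra.im_mul, ← hN]
      ring
    rw [he]
    exact dvd_add (dvd_mul_of_dvd_right h _) (dvd_mul_left _ _)

theorem not_dvd_star (hp : p.Prime) (hp3 : p ≠ 3) (hN : norm π = (p : ℤ)) : ¬π ∣ star π := by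
  have hp' : Prime (p : ℤ) := Nat.prime_iff_prime_int.mp hp
  rw [dvd_iff hp hN, QuadraticAlgebra.re_star, QuadraticAlgebra.im_star]
  rw [norm_eq] at hN
  intro h
  have h3 : (p : ℤ) ∣ 3 * π.im ^ 2 := by
    rcases hp'.dvd_or_dvd (a := π.im) (b := 2 * π.re - π.im) (by
      rwa [show π.im * (2 * π.re - π.im) =
        (π.re + -1 * π.im) * π.im - -π.im * π.re by ring]) with
      ⟨k, hk⟩ | ⟨k, hk⟩
    · exact ⟨3 * k * π.im, by rw [hk]; ring⟩
    · exact ⟨4 - k * (2 * π.re - π.im), by linear_combination 4 * hN - (2 * π.re - π.im) * hk⟩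
  rcases hp'.dvd_or_dvd h3 with h3 | hy
  · exact hp3 ((Nat.prime_dvd_prime_iff_eq hp Nat.prime_three).mp (by exact_mod_cast h3))
  · obtain ⟨k, hk⟩ := hp'.dvd_of_dvd_pow hy
    obtain ⟨m, hm⟩ : (p : ℤ) ∣ π.re := hp'.dvd_of_dvd_pow (n := 2)
      ⟨1 + π.re * k - k * π.im, by rw [hk] at hN ⊢; linear_combination hN⟩
    rw [hk, hm] at hN
    have h1 : (p : ℤ) * (p * (m ^ 2 - m * k + k ^ 2)) = p * 1 := by linear_combination hN
    exact hp'.not_isUnit (isUnit_of_dvd_one ⟨_, (mul_left_cancel₀ hp'.ne_zero h1).symm⟩)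

end Prime

/-- **`p ≡ 1 (mod 3)` is a norm.** -/
theorem exists_norm_eq {p : ℕ} (hp : p.Prime) (h3 : p % 3 = 1) :
    ∃ z : Eisen, norm z = (p : ℤ) := by
  haveI : Fact p.Prime := ⟨hp⟩
  obtain ⟨r, hr⟩ : ∃ r : ZMod p, r ^ 2 + r + 1 = 0 := by
    haveI : Fact (Nat.Prime 3) := ⟨Nat.prime_three⟩
    obtain ⟨u, hu⟩ := exists_prime_orderOf_dvd_card' (G := (ZMod p)ˣ) 3 (by
      rw [Nat.card_eq_fintype_card, ZMod.card_units]
      omega)
    have h1 : (u : ZMod p) ^ 3 = 1 := by
      rw [← Units.val_pow_eq_pow_val, ← hu, pow_orderOf_eq_one, Units.val_one]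
    have h2 : (u : ZMod p) ≠ 1 := fun h => by
      rw [Units.val_eq_one.mp h, orderOf_one] at hu
      omega
    exact ⟨u, (mul_eq_zero.mp (show ((u : ZMod p) - 1) * ((u : ZMod p) ^ 2 + u + 1) = 0 by
      linear_combination h1)).resolve_left (sub_ne_zero.mpr h2)⟩
  obtain ⟨x, y, hne, hx, hy, hxy⟩ := FA.ClassEight.exists_small (-r)
  obtain ⟨c, hc⟩ : (p : ℤ) ∣ x ^ 2 - x * y + y ^ 2 :=
    (ZMod.intCast_zmod_eq_zero_iff_dvd _ p).mp (by
      push_cast
      rw [hxy]
      linear_combination (y : ZMod p) ^ 2 * hr)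
  have hp0 : (0 : ℤ) < p := Int.natCast_pos.mpr hp.pos
  have hpos : 0 < x ^ 2 - x * y + y ^ 2 := by
    rcases hne with h | h
    · nlinarith [sq_pos_of_ne_zero h, sq_nonneg (x - 2 * y)]
    · nlinarith [sq_pos_of_ne_zero h, sq_nonneg (2 * x - y)]
  have h1 : 0 < c := by nlinarith
  have h2 : c < 3 := by nlinarith [sq_nonneg (x + y)]
  have hc2 : c ≠ 2 := fun h => by
    rw [h] at hc
    have hev : Even (x ^ 2 - x * y + y ^ 2) := ⟨p, by rw [hc]; ring⟩
    simp only [Int.even_add, Int.even_sub, Int.even_pow, Int.even_mul] at hev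
    obtain ⟨⟨x', rfl⟩, ⟨y', rfl⟩⟩ : Even x ∧ Even y := by tauto
    have h' : (p : ℤ) = 2 * (x' ^ 2 - x' * y' + y' ^ 2) := by linarith
    rcases (Nat.dvd_prime hp).mp (show 2 ∣ p by omega) with h2 | h2 <;> omega
  obtain rfl : c = 1 := by omega
  exact ⟨⟨x, y⟩, by rw [norm_eq]; linear_combination hc⟩

/-- A prime above `p`. -/
def piOf (p : ℕ) : Eisen :=
  if h : ∃ z : Eisen, norm z = (p : ℤ) then h.choose else 0

theorem norm_piOf {p : ℕ} (hp : p.Prime) (h3 : p % 3 = 1) : norm (piOf p) = (p : ℤ) := by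
  rw [piOf, dif_pos (exists_norm_eq hp h3)]
  exact (exists_norm_eq hp h3).choose_spec

/-- The two primes above `p`. -/
def primeOf (p : ℕ) (s : Bool) : Eisen := if s then star (piOf p) else piOf p

theorem star_primeOf (p : ℕ) (s : Bool) : star (primeOf p s) = primeOf p (!s) := by
  cases s <;> simp [primeOf]

theorem norm_primeOf {p : ℕ} (hp : p.Prime) (h3 : p % 3 = 1) (s : Bool) :
    norm (primeOf p s) = (p : ℤ) := by
  cases s <;> simp [primeOf, norm_piOf hp h3]

theorem prime_primeOf {p : ℕ} (hp : p.Prime) (h3 : p % 3 = 1) (s : Bool) : Prime (primeOf p s) :=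
  prime_of_norm hp (norm_primeOf hp h3 s)

theorem primeOf_dvd {p q : ℕ} (hp : p.Prime) (hq : q.Prime) (h3 : p % 3 = 1) (h3' : q % 3 = 1)
    (s t : Bool) (h : primeOf p s ∣ primeOf q t) : p = q ∧ s = t := by
  have hn := norm_dvd_of_dvd h
  rw [norm_primeOf hp h3, norm_primeOf hq h3'] at hn
  obtain rfl : p = q := (Nat.prime_dvd_prime_iff_eq hp hq).mp (Int.natCast_dvd_natCast.mp hn)
  refine ⟨rfl, ?_⟩
  by_contra hst
  obtain rfl : t = !s := by cases s <;> cases t <;> simp_all
  rw [← star_primeOf] at h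
  exact not_dvd_star hp (by omega) (norm_primeOf hp h3 s) h

/-! ## Orders at a prime -/

/-- The order at `q`. -/
def ord (q x : Eisen) : ℕ := multiplicity q x

theorem ord_mul {q x y : Eisen} (hq : Prime q) (hx : x ≠ 0) (hy : y ≠ 0) :
    ord q (x * y) = ord q x + ord q y :=
  multiplicity_mul hq (FiniteMultiplicity.of_prime_left hq (mul_ne_zero hx hy))

theorem ord_pow {q x : Eisen} (hq : Prime q) (hx : x ≠ 0) (k : ℕ) :
    ord q (x ^ k) = k * ord q x :=
  FiniteMultiplicity.multiplicity_pow hq (FiniteMultiplicity.of_prime_left hq hx)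

theorem ord_one {q : Eisen} (hq : Prime q) : ord q 1 = 0 :=
  multiplicity_eq_zero.mpr fun h => hq.not_isUnit (isUnit_of_dvd_one h)

theorem ord_prod {q : Eisen} (hq : Prime q) {ι : Type*} (s : Finset ι) (f : ι → Eisen)
    (hf : ∀ i ∈ s, f i ≠ 0) : ord q (∏ i ∈ s, f i) = ∑ i ∈ s, ord q (f i) := by
  induction s using Finset.induction with
  | empty => rw [Finset.prod_empty, Finset.sum_empty, ord_one hq]
  | insert a s ha ih =>
    have hs : ∀ i ∈ s, f i ≠ 0 := fun i hi => hf i (Finset.mem_insert_of_mem hi)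
    rw [Finset.prod_insert ha, Finset.sum_insert ha,
      ord_mul hq (hf a (Finset.mem_insert_self a s)) (Finset.prod_ne_zero_iff.mpr hs), ih hs]

theorem ord_primeOf {p q : ℕ} (hp : p.Prime) (hq : q.Prime) (h3 : p % 3 = 1) (h3' : q % 3 = 1)
    (s t : Bool) : ord (primeOf p s) (primeOf q t) = if p = q ∧ s = t then 1 else 0 := by
  split_ifs with h
  · obtain ⟨rfl, rfl⟩ := h
    have := multiplicity_pow_self_of_prime (prime_primeOf hp h3 s) 1
    rwa [pow_one] at this
  · exact multiplicity_eq_zero.mpr fun hd => h (primeOf_dvd hp hq h3 h3' s t hd)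

/-! ## The field `ℚ(ω)` -/

/-- `ℚ(ω)`. -/
def baseField : IntermediateField ℚ ℂ := IntermediateField.adjoin ℚ {zeta3}

theorem zeta3_mem : zeta3 ∈ baseField := IntermediateField.mem_adjoin_simple_self ℚ zeta3

theorem toC_mem (z : Eisen) : toC z ∈ baseField := by
  rw [toC_apply]
  exact add_mem (intCast_mem _ _) (mul_mem (intCast_mem _ _) zeta3_mem)

theorem isIntegral_zeta3 : IsIntegral ℚ zeta3 :=
  IsIntegral.of_pow (by norm_num : (0 : ℕ) < 3) (by rw [zeta3_pow_three]; exact isIntegral_one)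

theorem mem_baseField {z : ℂ} (hz : z ∈ baseField) : ∃ x y : ℚ, z = (x : ℂ) + (y : ℂ) * zeta3 := by
  rw [baseField, ← IntermediateField.mem_toSubalgebra,
    IntermediateField.adjoin_simple_toSubalgebra_of_isAlgebraic isIntegral_zeta3.isAlgebraic] at hz
  induction hz using Algebra.adjoin_induction with
  | mem u hu => exact ⟨0, 1, by rw [Set.mem_singleton_iff.mp hu]; simp⟩
  | algebraMap r => exact ⟨r, 0, by simp⟩
  | add u v _ _ hu hv =>
    obtain ⟨x, y, rfl⟩ := hu
    obtain ⟨x', y', rfl⟩ := hv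
    exact ⟨x + x', y + y', by push_cast; ring⟩
  | mul u v _ _ hu hv =>
    obtain ⟨x, y, rfl⟩ := hu
    obtain ⟨x', y', rfl⟩ := hv
    refine ⟨x * x' - y * y', x * y' + y * x' - y * y', ?_⟩
    push_cast
    linear_combination (y : ℂ) * y' * zeta3_mul_self

/-- **The fractions.** -/
theorem exists_fraction {z : ℂ} (hz : z ∈ baseField) :
    ∃ x y : Eisen, y ≠ 0 ∧ z * toC y = toC x := by
  obtain ⟨x, y, rfl⟩ := mem_baseField hz
  refine ⟨⟨x.num * y.den, y.num * x.den⟩, ((x.den * y.den : ℕ) : Eisen), ?_, ?_⟩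
  · rw [← map_ne_zero_iff toC toC_injective, map_natCast]
    exact_mod_cast (Nat.mul_pos x.pos y.pos).ne'
  · rw [map_natCast, toC_apply]
    have hx : (x : ℂ) * (x.den : ℂ) = (x.num : ℂ) := by exact_mod_cast Rat.mul_den_eq_num x
    have hy : (y : ℂ) * (y.den : ℂ) = (y.num : ℂ) := by exact_mod_cast Rat.mul_den_eq_num y
    push_cast
    linear_combination (y.den : ℂ) * hx + zeta3 * (x.den : ℂ) * hy

end FA.KlunersMalle
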