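import Fermat.Agent.KlunersMalle.Kummer
import Mathlib.Analysis.Complex.Polynomial.Basic
import Mathlib.FieldTheory.IsAlgClosed.Basic
import Mathlib.FieldTheory.Normal.Closure

/-!
# The sextic fields

For `α` in the Eisenstein integers with conjugate outside `u³ α^k`, `L = ℚ(ω, θ)`, `θ³ = α`, has
degree `6` and its normal closure `M = ℚ(ω, θ, conj θ)` has degree `18`.
-/

set_option autoImplicit false
set_option linter.style.haveILetI false

noncomputable section

open Polynomial IntermediateField Module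
open scoped Classical

namespace FA.KlunersMalle

/-- The conjugate of `a` is no `u³ a^k`. -/
def Generic (a : Eisen) : Prop :=
  ∀ u ∈ baseField, ∀ k : ℕ, k < 3 → u ^ 3 * toC a ^ k ≠ starRingEnd ℂ (toC a)

/-- A chosen cube root. -/
def theta (a : Eisen) : ℂ := toC a ^ ((3 : ℂ)⁻¹)

theorem theta_pow_three (a : Eisen) : theta a ^ 3 = toC a :=
  Complex.cpow_nat_inv_pow _ three_ne_zero

/-- `ℚ(ω, θ)`. -/
def sextic (a : Eisen) : IntermediateField ℚ ℂ := adjoin ℚ {zeta3, theta a}

/-- `ℚ(ω, θ, conj θ)`. -/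
def bigField (a : Eisen) : IntermediateField ℚ ℂ :=
  adjoin ℚ {zeta3, theta a, starRingEnd ℂ (theta a)}

variable {a : Eisen}

theorem theta_mem (a : Eisen) : theta a ∈ sextic a := subset_adjoin _ _ (by simp)

theorem zeta3_mem_sextic (a : Eisen) : zeta3 ∈ sextic a := subset_adjoin _ _ (by simp)

theorem theta_mem_big (a : Eisen) : theta a ∈ bigField a := subset_adjoin _ _ (by simp)

theorem conj_theta_mem_big (a : Eisen) : starRingEnd ℂ (theta a) ∈ bigField a :=
  subset_adjoin _ _ (by simp)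

theorem zeta3_mem_big (a : Eisen) : zeta3 ∈ bigField a := subset_adjoin _ _ (by simp)

theorem sextic_le_bigField (a : Eisen) : sextic a ≤ bigField a :=
  adjoin.mono _ _ _ (by intro x hx; rcases hx with rfl | rfl <;> simp)

theorem sextic_eq (a : Eisen) :
    sextic a = (IntermediateField.adjoin baseField {theta a}).restrictScalars ℚ := by
  rw [sextic, baseField]
  exact (congrArg _ (Set.insert_eq zeta3 {theta a})).trans
    (adjoin_adjoin_left ℚ ({zeta3} : Set ℂ) {theta a}).symm

theorem bigField_eq (a : Eisen) :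
    bigField a =
      (IntermediateField.adjoin (sextic a) {starRingEnd ℂ (theta a)}).restrictScalars ℚ := by
  rw [bigField, sextic]
  exact (congrArg _ (by ext; simp; tauto)).trans
    (adjoin_adjoin_left ℚ ({zeta3, theta a} : Set ℂ) {starRingEnd ℂ (theta a)}).symm

theorem Generic.ne_cube (h : Generic a) : ∀ u ∈ baseField, u ^ 3 ≠ theta a ^ 3 := fun u hu e => by
  refine h (starRingEnd ℂ u) (conj_mem hu) 0 (by norm_num) ?_
  rw [pow_zero, mul_one, ← map_pow, e, theta_pow_three]

theorem theta_pow_three_mem (a : Eisen) : theta a ^ 3 ∈ baseField := by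
  rw [theta_pow_three]
  exact toC_mem a

/-- **Kummer theory in `L`.** -/
theorem Generic.exists_mul_pow (h : Generic a) {x : ℂ} (hx : x ∈ sextic a)
    (h3 : x ^ 3 ∈ baseField) : ∃ u ∈ baseField, ∃ k : ℕ, k < 3 ∧ x = u * theta a ^ k := by
  rw [sextic_eq, mem_restrictScalars] at hx
  exact FA.KlunersMalle.exists_mul_pow (theta_pow_three_mem a) h.ne_cube hx h3

theorem Generic.theta_ne_zero (h : Generic a) : theta a ≠ 0 := fun e =>
  h.ne_cube 0 (zero_mem _) (by rw [e])

theorem Generic.conj_not_cube (h : Generic a) :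
    ∀ v ∈ sextic a, v ^ 3 ≠ starRingEnd ℂ (theta a) ^ 3 := fun v hv e => by
  rw [← map_pow, theta_pow_three] at e
  obtain ⟨u, hu, k, hk, rfl⟩ := h.exists_mul_pow hv (by rw [e]; exact conj_mem (toC_mem a))
  exact h u hu k hk (by
    rw [← e, mul_pow, ← pow_mul, mul_comm k 3, pow_mul, theta_pow_three])

theorem finrank_sextic (h : Generic a) : finrank ℚ (sextic a) = 6 := by
  rw [sextic_eq]
  change finrank ℚ (IntermediateField.adjoin baseField {theta a}) = 6
  rw [← Module.finrank_mul_finrank ℚ baseField, finrank_baseField,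
    finrank_simple (theta_pow_three_mem a) h.ne_cube]

theorem finrank_bigField (h : Generic a) : finrank ℚ (bigField a) = 18 := by
  rw [bigField_eq]
  change finrank ℚ (IntermediateField.adjoin (sextic a) {starRingEnd ℂ (theta a)}) = 18
  set θb := starRingEnd ℂ (theta a)
  have hm : θb ^ 3 ∈ sextic a := by
    have hle : baseField ≤ sextic a := adjoin_le_iff.mpr (by simpa using zeta3_mem_sextic a)
    refine hle ?_
    rw [← map_pow, theta_pow_three]
    exact conj_mem (toC_mem a)
  have hint : IsIntegral (sextic a) θb := IsIntegral.of_pow (by norm_num : (0 : ℕ) < 3)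
    (by simpa using isIntegral_algebraMap (R := sextic a) (A := ℂ) (x := ⟨θb ^ 3, hm⟩))
  have hmin : minpoly (sextic a) θb = X ^ 3 - C (⟨θb ^ 3, hm⟩ : sextic a) := by
    refine (minpoly.eq_of_irreducible_of_monic
      (X_pow_sub_C_irreducible_of_prime Nat.prime_three fun b hb => ?_) ?_
      (monic_X_pow_sub_C _ three_ne_zero)).symm
    · exact h.conj_not_cube b b.2 (by simpa using congrArg Subtype.val hb)
    · simp
  rw [← Module.finrank_mul_finrank ℚ (sextic a), finrank_sextic h, adjoin.finrank hint, hmin,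
    natDegree_X_pow_sub_C]

theorem finiteDimensional_sextic (h : Generic a) : FiniteDimensional ℚ (sextic a) :=
  FiniteDimensional.of_finrank_eq_succ (n := 5) (finrank_sextic h)

theorem finiteDimensional_bigField (h : Generic a) : FiniteDimensional ℚ (bigField a) :=
  FiniteDimensional.of_finrank_eq_succ (n := 17) (finrank_bigField h)

/-! ## Embeddings -/

/-- An embedding sends `ℚ(S)` into any field containing the images of `S`. -/
theorem algHom_adjoin_mem {S : Set ℂ} {T : IntermediateField ℚ ℂ}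
    (f : adjoin ℚ S →ₐ[ℚ] ℂ) (hS : ∀ s (hs : s ∈ S), f ⟨s, subset_adjoin ℚ S hs⟩ ∈ T)
    (x : adjoin ℚ S) : f x ∈ T := by
  obtain ⟨x, hx⟩ := x
  induction hx using IntermediateField.adjoin_induction with
  | mem s hs => exact hS s hs
  | algebraMap r =>
    change f (algebraMap ℚ (adjoin ℚ S) r) ∈ T
    rw [AlgHom.commutes]
    exact T.algebraMap_mem r
  | add x y hx hy ihx ihy =>
    rw [show (⟨x + y, _⟩ : adjoin ℚ S) = ⟨x, hx⟩ + ⟨y, hy⟩ from rfl, map_add]
    exact add_mem ihx ihy
  | inv x hx ih =>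
    rw [show (⟨x⁻¹, _⟩ : adjoin ℚ S) = (⟨x, hx⟩ : adjoin ℚ S)⁻¹ from rfl, map_inv₀]
    exact inv_mem ih
  | mul x y hx hy ihx ihy =>
    rw [show (⟨x * y, _⟩ : adjoin ℚ S) = ⟨x, hx⟩ * ⟨y, hy⟩ from rfl, map_mul]
    exact mul_mem ihx ihy

theorem map_zeta3 {E : IntermediateField ℚ ℂ} (f : E →ₐ[ℚ] ℂ) (hw : zeta3 ∈ E) :
    f ⟨zeta3, hw⟩ = zeta3 ∨ f ⟨zeta3, hw⟩ = -1 - zeta3 := by
  have he : (⟨zeta3, hw⟩ : E) * ⟨zeta3, hw⟩ = -1 - ⟨zeta3, hw⟩ := Subtype.ext (by
    simpa using zeta3_mul_self)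
  have he' := congrArg f he
  rw [map_mul, map_sub, map_neg, map_one] at he'
  have h0 : (f ⟨zeta3, hw⟩ - zeta3) * (f ⟨zeta3, hw⟩ - (-1 - zeta3)) = 0 := by
    linear_combination he' - zeta3_mul_self
  exact (mul_eq_zero.mp h0).imp sub_eq_zero.mp sub_eq_zero.mp

/-- **The images of a cube root.** -/
theorem map_root {E : IntermediateField ℚ ℂ} (f : E →ₐ[ℚ] ℂ) (hw : zeta3 ∈ E) {b : Eisen} {t : ℂ}
    (ht : t ∈ E) (h3 : t ^ 3 = toC b) (h0 : t ≠ 0) :
    (f ⟨zeta3, hw⟩ = zeta3 ∧ ∃ i, f ⟨t, ht⟩ = zpow3 i * t) ∨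
      (f ⟨zeta3, hw⟩ = -1 - zeta3 ∧ ∃ i, f ⟨t, ht⟩ = zpow3 i * starRingEnd ℂ t) := by
  have he : (⟨t, ht⟩ : E) ^ 3 = (b.re : E) + (b.im : E) * ⟨zeta3, hw⟩ := Subtype.ext (by
    simpa [toC_apply] using h3)
  have he' := congrArg f he
  rw [map_pow, map_add, map_mul, map_intCast, map_intCast] at he'
  rcases map_zeta3 f hw with hz | hz <;> rw [hz] at he'
  · exact Or.inl ⟨hz, exists_cube_root h0 (by rw [he', h3, toC_apply])⟩
  · refine Or.inr ⟨hz, exists_cube_root ((_root_.map_ne_zero _).mpr h0) ?_⟩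
    rw [he', ← map_pow, h3, toC_apply, map_add, map_mul, map_intCast, map_intCast, conj_zeta3]

theorem theta_conj_pow_three (a : Eisen) : starRingEnd ℂ (theta a) ^ 3 = toC (star a) := by
  rw [← map_pow, theta_pow_three, conj_toC]

theorem map_sextic_mem (h : Generic a) (f : sextic a →ₐ[ℚ] ℂ) (x : sextic a) :
    f x ∈ bigField a := by
  refine algHom_adjoin_mem f (fun s hs => ?_) x
  have hω : f ⟨zeta3, zeta3_mem_sextic a⟩ ∈ bigField a := by
    rcases map_zeta3 f (zeta3_mem_sextic a) with hz | hz <;> rw [hz]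
    exacts [zeta3_mem_big a, sub_mem (neg_mem (one_mem _)) (zeta3_mem_big a)]
  rcases hs with rfl | hs
  · exact hω
  · obtain rfl : s = theta a := hs
    rcases map_root f (zeta3_mem_sextic a) (theta_mem a) (theta_pow_three a) h.theta_ne_zero with
      ⟨-, i, hi⟩ | ⟨-, i, hi⟩
    · exact (congrArg (· ∈ bigField a) hi).mpr
        (mul_mem (pow_mem (zeta3_mem_big a) _) (theta_mem_big a))
    · exact (congrArg (· ∈ bigField a) hi).mpr
        (mul_mem (pow_mem (zeta3_mem_big a) _) (conj_theta_mem_big a))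

/-- **The normal closure.** -/
theorem normalClosure_sextic (h : Generic a) :
    IntermediateField.normalClosure ℚ (sextic a) ℂ = bigField a := by
  haveI := finiteDimensional_sextic h
  refine le_antisymm (normalClosure_le_iff.mpr ?_) ?_
  · rintro f _ ⟨x, rfl⟩
    exact map_sextic_mem h f x
  · refine adjoin_le_iff.mpr ?_
    rintro x (rfl | rfl | rfl)
    · exact le_normalClosure _ (zeta3_mem_sextic a)
    · exact le_normalClosure _ (theta_mem a)
    · exact AlgHom.fieldRange_le_normalClosure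
        (((Complex.conjAe.toAlgHom.restrictScalars ℚ)).comp (sextic a).val)
        ⟨⟨theta a, theta_mem a⟩, rfl⟩

theorem isGalois_bigField (h : Generic a) : IsGalois ℚ (bigField a) := by
  haveI := finiteDimensional_sextic h
  haveI : IsNormalClosure ℚ (sextic a) (normalClosure ℚ (sextic a) ℂ) :=
    Algebra.IsAlgebraic.isNormalClosure_normalClosure fun x => IsAlgClosed.splits _
  haveI : Normal ℚ (normalClosure ℚ (sextic a) ℂ) :=
    IsNormalClosure.normal (K := sextic a)
  exact normalClosure_sextic h ▸ IsGalois.mk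

end FA.KlunersMalle
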