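import Fermat.Agent.KlunersMalle.Eisen
import Mathlib.FieldTheory.IntermediateField.Adjoin.Basic
import Mathlib.FieldTheory.KummerPolynomial
import Mathlib.RingTheory.Polynomial.Cyclotomic.Roots

/-!
# Cube roots over `ℚ(ω)`

For `θ³ = α` not a cube in `ℚ(ω)`, an element of `ℚ(ω, θ)` with cube in `ℚ(ω)` is `u θ^k`: it is a
polynomial in `θ` whose cube is unchanged by `θ ↦ ω θ`.
-/

set_option autoImplicit false
set_option linter.style.haveILetI false

noncomputable section

open Polynomial IntermediateField Module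
open scoped Classical

namespace FA.KlunersMalle

/-! ## Cube roots of unity -/

theorem isPrimitiveRoot_zeta3 : IsPrimitiveRoot zeta3 3 := by
  haveI : Fact (Nat.Prime 3) := ⟨Nat.prime_three⟩
  exact IsPrimitiveRoot.iff_orderOf.mpr (orderOf_eq_prime zeta3_pow_three zeta3_ne_one)

/-- `ω^i`. -/
def zpow3 (i : ZMod 3) : ℂ := zeta3 ^ i.val

theorem zpow3_add (i j : ZMod 3) : zpow3 (i + j) = zpow3 i * zpow3 j := by
  rw [zpow3, zpow3, zpow3, ← pow_add, ZMod.val_add, ← pow_eq_pow_mod _ zeta3_pow_three]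

theorem zpow3_zero : zpow3 0 = 1 := by simp [zpow3]

theorem zpow3_one : zpow3 1 = zeta3 := by
  rw [zpow3, show (1 : ZMod 3).val = 1 from rfl, pow_one]

theorem zpow3_ne_zero (i : ZMod 3) : zpow3 i ≠ 0 :=
  pow_ne_zero _ (isPrimitiveRoot_zeta3.ne_zero three_ne_zero)

theorem zpow3_injective : Function.Injective zpow3 := fun i j h =>
  ZMod.val_injective 3 (isPrimitiveRoot_zeta3.pow_inj (ZMod.val_lt i) (ZMod.val_lt j) h)

theorem zpow3_pow_three (i : ZMod 3) : zpow3 i ^ 3 = 1 := by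
  rw [zpow3, ← pow_mul, mul_comm, pow_mul, zeta3_pow_three, one_pow]

theorem conj_zpow3 (i : ZMod 3) : starRingEnd ℂ (zpow3 i) = zpow3 (-i) := by
  refine mul_left_cancel₀ (zpow3_ne_zero i) ?_
  rw [← zpow3_add, add_neg_cancel, zpow3_zero, zpow3, map_pow, ← mul_pow, conj_zeta3]
  rw [show zeta3 * (-1 - zeta3) = 1 by linear_combination -zeta3_mul_self, one_pow]

theorem zpow3_mem (i : ZMod 3) : zpow3 i ∈ baseField := pow_mem zeta3_mem _

theorem exists_zpow3 {x : ℂ} (h : x ^ 3 = 1) : ∃ i, x = zpow3 i := by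
  obtain ⟨k, hk, rfl⟩ := isPrimitiveRoot_zeta3.eq_pow_of_pow_eq_one h
  exact ⟨k, by rw [zpow3, ZMod.val_natCast, Nat.mod_eq_of_lt hk]⟩

theorem exists_cube_root {x y : ℂ} (hy : y ≠ 0) (h : x ^ 3 = y ^ 3) : ∃ i, x = zpow3 i * y := by
  obtain ⟨i, hi⟩ := exists_zpow3 (x := x / y) (by rw [div_pow, h, div_self (pow_ne_zero 3 hy)])
  exact ⟨i, by rw [← hi, div_mul_cancel₀ x hy]⟩

theorem finrank_baseField : finrank ℚ baseField = 2 := by
  rw [baseField, adjoin.finrank isIntegral_zeta3,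
    ← cyclotomic_eq_minpoly_rat isPrimitiveRoot_zeta3 (by norm_num), natDegree_cyclotomic,
    Nat.totient_prime Nat.prime_three]

theorem conj_mem {u : ℂ} (hu : u ∈ baseField) : starRingEnd ℂ u ∈ baseField := by
  obtain ⟨x, y, rfl⟩ := mem_baseField hu
  rw [map_add, map_mul, map_ratCast, map_ratCast, conj_zeta3]
  exact add_mem (SubfieldClass.ratCast_mem _ _)
    (mul_mem (SubfieldClass.ratCast_mem _ _) (sub_mem (neg_mem (one_mem _)) zeta3_mem))

/-! ## Kummer theory -/

section Kummer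

variable {θ : ℂ} (h1 : θ ^ 3 ∈ baseField) (h2 : ∀ u ∈ baseField, u ^ 3 ≠ θ ^ 3)

include h1 in
theorem isIntegral_root : IsIntegral baseField θ :=
  IsIntegral.of_pow (by norm_num : (0 : ℕ) < 3)
    (by simpa using isIntegral_algebraMap (R := baseField) (A := ℂ) (x := ⟨θ ^ 3, h1⟩))

include h2 in
theorem minpoly_root : minpoly baseField θ = X ^ 3 - C (⟨θ ^ 3, h1⟩ : baseField) := by
  refine (minpoly.eq_of_irreducible_of_monic
    (X_pow_sub_C_irreducible_of_prime Nat.prime_three fun b hb => ?_) ?_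
    (monic_X_pow_sub_C _ three_ne_zero)).symm
  · exact h2 b b.2 (by simpa using congrArg Subtype.val hb)
  · simp

include h1 h2 in
theorem finrank_simple : finrank baseField (IntermediateField.adjoin baseField {θ}) = 3 := by
  rw [adjoin.finrank (isIntegral_root h1), minpoly_root h1 h2, natDegree_X_pow_sub_C]

include h1 h2 in
/-- **Kummer.** -/
theorem exists_mul_pow {θ' : ℂ} (h : θ' ∈ IntermediateField.adjoin baseField {θ})
    (h3 : θ' ^ 3 ∈ baseField) :
    ∃ u ∈ baseField, ∃ k : ℕ, k < 3 ∧ θ' = u * θ ^ k := by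
  rw [← mem_toSubalgebra,
    adjoin_simple_toSubalgebra_of_isAlgebraic (isIntegral_root h1).isAlgebraic,
    Algebra.adjoin_singleton_eq_range_aeval] at h
  obtain ⟨f₀, hf₀⟩ := h
  set P : baseField[X] := X ^ 3 - C (⟨θ ^ 3, h1⟩ : baseField) with hP
  have hPm : P.Monic := monic_X_pow_sub_C _ three_ne_zero
  have hPθ : aeval θ P = 0 := by rw [hP]; simp
  have hPd : P.natDegree = 3 := natDegree_X_pow_sub_C
  set f := f₀ %ₘ P with hfdef
  have hdeg : f.natDegree < 3 := hPd ▸ natDegree_modByMonic_lt f₀ hPm fun h => by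
    rw [h, natDegree_one] at hPd; omega
  have hfθ : aeval θ f = θ' := by
    rw [← hf₀, hfdef, aeval_modByMonic_eq_self_of_root hPθ]
    rfl
  -- the cube does not see `θ ↦ ω θ`
  have hg : aeval θ (f ^ 3 - C (⟨θ' ^ 3, h3⟩ : baseField)) = 0 := by simp [hfθ]
  obtain ⟨g, hg⟩ := minpoly.dvd baseField θ hg
  rw [minpoly_root h1 h2, ← hP] at hg
  have hσ : (aeval (zeta3 * θ) f) ^ 3 = θ' ^ 3 := by
    have h' := congrArg (aeval (zeta3 * θ)) hg
    rw [map_mul, show aeval (zeta3 * θ) P = 0 by rw [hP]; simp [mul_pow, zeta3_pow_three],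
      zero_mul, map_sub, map_pow, aeval_C, sub_eq_zero] at h'
    exact h'
  rcases eq_or_ne θ' 0 with h0 | h0
  · exact ⟨0, zero_mem _, 0, by norm_num, by rw [h0, zero_mul]⟩
  obtain ⟨j, hj⟩ := exists_cube_root h0 hσ
  -- coefficient comparison
  set ζ : baseField := ⟨zeta3, zeta3_mem⟩
  set g' : baseField[X] := f.comp (C ζ * X) - C (⟨zpow3 j, zpow3_mem j⟩ : baseField) * f
  have hg'θ : aeval θ g' = 0 := by
    simp only [g', map_sub, map_mul, aeval_comp, aeval_C, aeval_X, hfθ]
    rw [show algebraMap baseField ℂ ζ = zeta3 from rfl, hj]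
    exact sub_self _
  have hg'0 : g' = 0 := by
    by_contra hne
    have hle := natDegree_le_of_dvd (minpoly.dvd baseField θ hg'θ) hne
    rw [minpoly_root h1 h2, ← hP, hPd] at hle
    have hlt : g'.natDegree ≤ f.natDegree := by
      refine (natDegree_sub_le _ _).trans (max_le ?_ (natDegree_C_mul_le _ _))
      refine natDegree_comp_le.trans ?_
      calc f.natDegree * (C ζ * X).natDegree ≤ f.natDegree * 1 :=
            Nat.mul_le_mul_left _ ((natDegree_C_mul_le _ _).trans natDegree_X_le)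
        _ = f.natDegree := mul_one _
    omega
  have hc : ∀ k, k < 3 → k ≠ j.val → f.coeff k = 0 := fun k hk hkj => by
    have h' := congrArg (fun q : baseField[X] => q.coeff k) hg'0
    simp only [g', coeff_sub, comp_C_mul_X_coeff, coeff_C_mul, coeff_zero] at h'
    rw [mul_comm, ← sub_mul, mul_eq_zero] at h'
    refine h'.resolve_left fun h'' => hkj ?_
    exact isPrimitiveRoot_zeta3.pow_inj hk (ZMod.val_lt j)
      (by simpa [ζ, zpow3] using congrArg Subtype.val (sub_eq_zero.mp h''))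
  refine ⟨f.coeff j.val, (f.coeff j.val).2, j.val, ZMod.val_lt j, ?_⟩
  rw [← hfθ, aeval_eq_sum_range' hdeg, Finset.sum_eq_single j.val
    (fun k hk hkj => by rw [hc k (Finset.mem_range.mp hk) hkj, zero_smul])
    (fun h => absurd (Finset.mem_range.mpr (ZMod.val_lt j)) h)]
  rfl

end Kummer

end FA.KlunersMalle
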