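import Fermat.Agent.KlunersMalle.Galois
import Mathlib.GroupTheory.GroupAction.Basic
import Mathlib.GroupTheory.OrderOfElement

/-!
# Malle's exponents of `C₃ ≀ C₂`

The index of an element is six minus the number of its orbits. The minimum over nontrivial elements
is `2`, and any two elements of index `2` are conjugate up to a power prime to the order, so Malle's
conjecture predicts `X^{1/2}` with no power of `log X`.
-/

set_option autoImplicit false
set_option linter.style.haveILetI false

namespace FA.KlunersMalle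

instance : DecidableEq WreathGroup := fun x y =>
  decidable_of_iff (x.left = y.left ∧ x.right = y.right) RegularWreathProduct.ext_iff.symm

instance : Fintype WreathGroup :=
  Fintype.ofEquiv _ (RegularWreathProduct.equivProd _ _).symm

/-- The points reached from `p` by powers of `w`. -/
def orbitOf (w : WreathGroup) (p : SixPoints) : Finset SixPoints :=
  Finset.univ.image fun i : Fin 6 => w ^ (i : ℕ) • p

/-- **Malle's index**: six minus the number of orbits. -/
def malleIndex (w : WreathGroup) : ℕ :=
  6 - (Finset.univ.image (orbitOf w)).card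

theorem pow_six (w : WreathGroup) : w ^ 6 = 1 := by
  revert w
  decide +kernel

theorem coe_orbitOf (w : WreathGroup) (p : SixPoints) :
    (orbitOf w p : Set SixPoints) = MulAction.orbit (Subgroup.zpowers w) p := by
  ext q
  constructor
  · intro hq
    obtain ⟨i, -, rfl⟩ := Finset.mem_image.mp hq
    exact ⟨⟨w ^ (i : ℕ), (i : ℕ), zpow_natCast w i⟩, rfl⟩
  · rintro ⟨⟨g, k, rfl⟩, rfl⟩
    refine Finset.mem_image.mpr ⟨⟨(k % 6).toNat, by omega⟩, Finset.mem_univ _, ?_⟩
    show w ^ (k % 6).toNat • p = w ^ k • p
    have hk : w ^ k = w ^ ((k % 6).toNat) := by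
      conv_lhs => rw [← Int.emod_add_mul_ediv k 6, zpow_add, zpow_mul,
        show w ^ (6 : ℤ) = 1 by rw [show (6 : ℤ) = ((6 : ℕ) : ℤ) from rfl, zpow_natCast, pow_six],
        one_zpow, mul_one, ← Int.toNat_of_nonneg (Int.emod_nonneg k (by norm_num : (6 : ℤ) ≠ 0)),
        zpow_natCast]
    rw [hk]

/-- **`a(G) = 2`**: every nontrivial element has index at least `2`, some exactly `2`. -/
theorem malleIndex_min :
    (∀ w : WreathGroup, w ≠ 1 → 2 ≤ malleIndex w) ∧ ∃ w : WreathGroup, malleIndex w = 2 := by
  decide +kernel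

theorem index_two_class : ∀ g h : WreathGroup, malleIndex g = 2 → malleIndex h = 2 →
    g ^ 3 = 1 ∧ ∃ j : Fin 3, (j : ℕ) ≠ 0 ∧ ∃ x : WreathGroup, x * g ^ (j : ℕ) * x⁻¹ = h := by
  decide +kernel

/-- **`b(ℚ, G) = 1`**: one orbit of minimal classes under powers prime to the order. -/
theorem malleIndex_class {g h : WreathGroup} (hg : malleIndex g = 2) (hh : malleIndex h = 2) :
    ∃ j : ℕ, j.Coprime (orderOf g) ∧ IsConj (g ^ j) h := by
  obtain ⟨h3, j, hj, x, hx⟩ := index_two_class g h hg hh
  refine ⟨j, Nat.Coprime.coprime_dvd_right (orderOf_dvd_of_pow_eq_one h3) ?_,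
    isConj_iff.mpr ⟨x, hx⟩⟩
  rw [Nat.coprime_comm, Nat.prime_three.coprime_iff_not_dvd]
  intro hd
  have := Nat.le_of_dvd (Nat.pos_of_ne_zero hj) hd
  omega

end FA.KlunersMalle
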